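import Mathlib.RingTheory.Valuation.RamificationGroup
import Mathlib.RingTheory.Valuation.ValuationSubring
import Fermat.Prelude.Def_FLTPrelim_Ramification

set_option autoImplicit false
set_option linter.unusedSectionVars false
set_option linter.unusedVariables false

namespace Fermat.Agent.S05

/-- Elements of the inertia group act trivially modulo the maximal ideal. -/
lemma inertia_congr {K L : Type*} [Field K] [Field L] [Algebra K L] (A : ValuationSubring L)
    (σ : L ≃ₐ[K] L) (hσ : σ ∈ A.inertiaSubgroupIn K) (x : L) (hx : A.valuation x ≤ 1) :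
    A.valuation (σ x - x) < 1 := by
  obtain ⟨τ, hτ, rfl⟩ := Subgroup.mem_map.mp hσ
  have hxA : x ∈ A := (A.valuation_le_one_iff x).mp hx
  have h1 : MulSemiringAction.toRingAut (A.decompositionSubgroup K)
      (IsLocalRing.ResidueField A) τ = 1 := MonoidHom.mem_ker.mp hτ
  have h2 : τ • IsLocalRing.residue A ⟨x, hxA⟩ = IsLocalRing.residue A ⟨x, hxA⟩ := by
    have := congrArg (fun f => f (IsLocalRing.residue A ⟨x, hxA⟩)) h1
    simpa using this
  rw [← IsLocalRing.ResidueField.residue_smul] at h2
  have h3 : τ • (⟨x, hxA⟩ : A) - ⟨x, hxA⟩ ∈ IsLocalRing.maximalIdeal A := by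
    rw [← Ideal.Quotient.eq]
    exact h2
  have h4 := (A.valuation_lt_one_iff _).mp h3
  exact h4

section integers

variable {L : Type*} [Field L] (A : ValuationSubring L)

lemma val_intCast_le_one (n : ℤ) : A.valuation (n : L) ≤ 1 :=
  (A.valuation_le_one_iff _).mpr (intCast_mem A n)

lemma val_intCast_lt_one_of_dvd {q : ℕ} (hq : A.valuation (q : L) < 1) {n : ℤ}
    (h : (q : ℤ) ∣ n) : A.valuation (n : L) < 1 := by
  obtain ⟨k, rfl⟩ := h
  rw [Int.cast_mul, map_mul, Int.cast_natCast]
  calc A.valuation (q : L) * A.valuation (k : L) ≤ A.valuation (q : L) * 1 := by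
        gcongr
        exact val_intCast_le_one A k
    _ = A.valuation (q : L) := mul_one _
    _ < 1 := hq

lemma val_intCast_eq_one_of_not_dvd {q : ℕ} (hqp : q.Prime) (hq : A.valuation (q : L) < 1)
    {n : ℤ} (h : ¬ (q : ℤ) ∣ n) : A.valuation (n : L) = 1 := by
  have hcop : IsCoprime (q : ℤ) n :=
    (Prime.coprime_iff_not_dvd (Nat.prime_iff_prime_int.mp hqp)).mpr h
  obtain ⟨a, b, hab⟩ := hcop
  have h1 : (a : L) * (q : L) + (b : L) * (n : L) = 1 := by
    have := congrArg (Int.cast : ℤ → L) hab
    push_cast at this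
    exact this
  have hsmall : A.valuation ((a : L) * (q : L)) < 1 := by
    rw [map_mul]
    calc A.valuation (a : L) * A.valuation (q : L) ≤ 1 * A.valuation (q : L) := by
          gcongr
          exact val_intCast_le_one A a
      _ = A.valuation (q : L) := one_mul _
      _ < 1 := hq
  have hbn : A.valuation ((b : L) * (n : L)) = 1 := by
    have : (b : L) * (n : L) = 1 - (a : L) * (q : L) := by linear_combination h1
    rw [this]
    exact A.valuation.map_one_sub_of_lt hsmall
  rw [map_mul] at hbn
  refine le_antisymm (val_intCast_le_one A n) ?_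
  calc (1 : A.ValueGroup) = A.valuation (b : L) * A.valuation (n : L) := hbn.symm
    _ ≤ 1 * A.valuation (n : L) := by
      gcongr
      exact val_intCast_le_one A b
    _ = A.valuation (n : L) := one_mul _

end integers

end Fermat.Agent.S05
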