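import Fermat.Agent.S05.Special

set_option autoImplicit false
set_option linter.unusedSectionVars false
set_option linter.unusedVariables false

namespace Fermat.Agent.S05

open WeierstrassCurve WeierstrassCurve.Affine

variable {K : Type*} [Field K] [DecidableEq K]

/-- Weierstrass curves of the form `y² + xy = x³ + a₂x² + a₄x`. -/
structure IsFreyForm (W : Affine K) : Prop where
  a₁ : W.a₁ = 1
  a₃ : W.a₃ = 0
  a₆ : W.a₆ = 0

/-- The data relating a curve `W₁` in Frey form and a curve `W₂` in special form through the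
change of variables `X = 4x + r`, `Y = 8y + 4x`. -/
structure TransferData (W₁ W₂ : Affine K) (r : K) : Prop where
  frey : IsFreyForm W₁
  special : IsSpecial W₂
  two_ne : (2 : K) ≠ 0
  hu : W₂.a₂ = 4 * W₁.a₂ + 1 - 3 * r
  hw : W₂.a₄ = 3 * r ^ 2 - 2 * r * (4 * W₁.a₂ + 1) + 16 * W₁.a₄
  hr : -r ^ 3 + (4 * W₁.a₂ + 1) * r ^ 2 - 16 * W₁.a₄ * r = 0

variable {W₁ W₂ : Affine K} {r : K}

lemma TransferData.nonsingular (T : TransferData W₁ W₂ r) {x y : K} (h : W₁.Nonsingular x y) :
    W₂.Nonsingular (4 * x + r) (8 * y + 4 * x) := by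
  rw [Affine.nonsingular_iff] at h ⊢
  obtain ⟨he, hns⟩ := h
  rw [Affine.equation_iff, T.frey.a₁, T.frey.a₃, T.frey.a₆] at he
  rw [T.frey.a₁, T.frey.a₃] at hns
  have h2 := T.two_ne
  refine ⟨?_, ?_⟩
  · rw [T.special.equation_iff, T.hu, T.hw]
    linear_combination 64 * he + T.hr
  · rw [T.special.a₁, T.special.a₃, T.hu, T.hw]
    by_contra hcon
    rw [not_or, not_not, not_not] at hcon
    obtain ⟨h1, h2'⟩ := hcon
    have hy : 2 * y + x = 0 := by
      have : (2 : K) ^ 3 * (2 * y + x) = 0 := by linear_combination h2'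
      rcases mul_eq_zero.mp this with h | h
      · exact absurd h (pow_ne_zero 3 h2)
      · exact h
    have hx : 6 * x ^ 2 + (4 * W₁.a₂ + 1) * x + 2 * W₁.a₄ = 0 := by
      have : (2 : K) ^ 3 * (6 * x ^ 2 + (4 * W₁.a₂ + 1) * x + 2 * W₁.a₄) = 0 := by
        linear_combination -h1
      rcases mul_eq_zero.mp this with h | h
      · exact absurd h (pow_ne_zero 3 h2)
      · exact h
    rcases hns with hns | hns
    · apply hns
      have : (2 : K) * (1 * y - (3 * x ^ 2 + 2 * W₁.a₂ * x + W₁.a₄)) = 0 := by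
        linear_combination hy - hx
      rcases mul_eq_zero.mp this with h | h
      · exact absurd h h2
      · linear_combination h
    · apply hns
      linear_combination hy

/-- The transfer map on points. -/
noncomputable def TransferData.toFun (T : TransferData W₁ W₂ r) : W₁.Point → W₂.Point
  | .zero => .zero
  | .some x y h => .some (4 * x + r) (8 * y + 4 * x) (T.nonsingular h)

lemma TransferData.toFun_zero (T : TransferData W₁ W₂ r) : T.toFun 0 = 0 := rfl

lemma TransferData.toFun_some (T : TransferData W₁ W₂ r) {x y : K} (h : W₁.Nonsingular x y) :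
    T.toFun (Point.some x y h) = Point.some (4 * x + r) (8 * y + 4 * x) (T.nonsingular h) := rfl

lemma TransferData.injective (T : TransferData W₁ W₂ r) : Function.Injective T.toFun := by
  have h2 := T.two_ne
  have h4 : (4 : K) ≠ 0 := by
    have : (4 : K) = 2 * 2 := by norm_num
    rw [this]; exact mul_ne_zero h2 h2
  have h8 : (8 : K) ≠ 0 := by
    have : (8 : K) = 2 * 4 := by norm_num
    rw [this]; exact mul_ne_zero h2 h4
  rintro (_ | ⟨x₁, y₁, h₁⟩) (_ | ⟨x₂, y₂, h₂⟩) h
  · rfl
  · exact absurd h (by simp [TransferData.toFun])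
  · exact absurd h (by simp [TransferData.toFun])
  · simp only [TransferData.toFun, Point.some.injEq] at h
    obtain ⟨hx, hy⟩ := h
    have hx' : x₁ = x₂ := by
      have : (4 : K) * (x₁ - x₂) = 0 := by linear_combination hx
      rcases mul_eq_zero.mp this with h | h
      · exact absurd h h4
      · exact sub_eq_zero.mp h
    subst hx'
    have hy' : y₁ = y₂ := by
      have : (8 : K) * (y₁ - y₂) = 0 := by linear_combination hy
      rcases mul_eq_zero.mp this with h | h
      · exact absurd h h8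
      · exact sub_eq_zero.mp h
    subst hy'
    rfl

lemma TransferData.slope_eq (T : TransferData W₁ W₂ r) {x₁ y₁ x₂ y₂ : K}
    (h₁ : W₁.Nonsingular x₁ y₁) (h₂ : W₁.Nonsingular x₂ y₂)
    (hxy : ¬(x₁ = x₂ ∧ y₁ = W₁.negY x₂ y₂)) :
    W₂.slope (4 * x₁ + r) (4 * x₂ + r) (8 * y₁ + 4 * x₁) (8 * y₂ + 4 * x₂) =
      2 * W₁.slope x₁ x₂ y₁ y₂ + 1 := by
  have h2 := T.two_ne
  have h4 : (4 : K) ≠ 0 := by
    have : (4 : K) = 2 * 2 := by norm_num
    rw [this]; exact mul_ne_zero h2 h2
  have h8 : (8 : K) ≠ 0 := by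
    have : (8 : K) = 2 * 4 := by norm_num
    rw [this]; exact mul_ne_zero h2 h4
  by_cases hx : x₁ = x₂
  · subst hx
    have hy : y₁ = y₂ := by
      rcases Y_eq_of_X_eq h₁.1 h₂.1 rfl with h | h
      · exact h
      · exact absurd ⟨rfl, h⟩ hxy
    subst hy
    have hy0 : y₁ ≠ W₁.negY x₁ y₁ := fun h => hxy ⟨rfl, h⟩
    have hy0' : 8 * y₁ + 4 * x₁ ≠ W₂.negY (4 * x₁ + r) (8 * y₁ + 4 * x₁) := by
      rw [T.special.negY]
      intro h
      apply hy0
      rw [Affine.negY, T.frey.a₁, T.frey.a₃]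
      have : (2 : K) ^ 3 * (2 * y₁ + x₁) = 0 := by linear_combination h
      rcases mul_eq_zero.mp this with h | h
      · exact absurd h (pow_ne_zero 3 h2)
      · linear_combination h
    rw [slope_of_Y_ne rfl hy0, slope_of_Y_ne rfl hy0', T.special.negY, T.special.a₁, T.hu, T.hw,
      Affine.negY, T.frey.a₁, T.frey.a₃]
    have hd : 2 * y₁ + x₁ ≠ 0 := by
      intro h
      apply hy0
      rw [Affine.negY, T.frey.a₁, T.frey.a₃]
      linear_combination h
    have hd1 : y₁ - (-y₁ - 1 * x₁ - 0) ≠ 0 := by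
      intro h; apply hd; linear_combination h
    have hd2 : 8 * y₁ + 4 * x₁ - -(8 * y₁ + 4 * x₁) ≠ 0 := by
      intro h
      have : (2 : K) ^ 3 * (2 * y₁ + x₁) = 0 := by linear_combination h
      rcases mul_eq_zero.mp this with h | h
      · exact absurd h (pow_ne_zero 3 h2)
      · exact hd h
    have e1 : y₁ - (-y₁ - 1 * x₁ - 0) = 2 * y₁ + x₁ := by ring
    have e2 : 8 * y₁ + 4 * x₁ - -(8 * y₁ + 4 * x₁) = 8 * (2 * y₁ + x₁) := by ring
    rw [e1, e2]
    field_simp
    ring
  · have hx' : 4 * x₁ + r ≠ 4 * x₂ + r := by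
      intro h
      apply hx
      have : (4 : K) * (x₁ - x₂) = 0 := by linear_combination h
      rcases mul_eq_zero.mp this with h | h
      · exact absurd h h4
      · exact sub_eq_zero.mp h
    rw [slope_of_X_ne hx, slope_of_X_ne hx']
    have hd : x₁ - x₂ ≠ 0 := sub_ne_zero.mpr hx
    have hd' : 4 * x₁ + r - (4 * x₂ + r) ≠ 0 := sub_ne_zero.mpr hx'
    rw [div_eq_iff hd']
    field_simp
    ring

/-- The transfer map is additive. -/
lemma TransferData.map_add (T : TransferData W₁ W₂ r) (P Q : W₁.Point) :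
    T.toFun (P + Q) = T.toFun P + T.toFun Q := by
  have h2 := T.two_ne
  have h4 : (4 : K) ≠ 0 := by
    have : (4 : K) = 2 * 2 := by norm_num
    rw [this]; exact mul_ne_zero h2 h2
  have h8 : (8 : K) ≠ 0 := by
    have : (8 : K) = 2 * 4 := by norm_num
    rw [this]; exact mul_ne_zero h2 h4
  rcases P with _ | ⟨x₁, y₁, h₁⟩
  · have : (Point.zero : W₁.Point) + Q = Q := zero_add Q
    rw [this]
    exact (zero_add (T.toFun Q)).symm
  rcases Q with _ | ⟨x₂, y₂, h₂⟩
  · have : Point.some x₁ y₁ h₁ + (Point.zero : W₁.Point) = Point.some x₁ y₁ h₁ := add_zero _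
    rw [this]
    exact (add_zero (T.toFun (Point.some x₁ y₁ h₁))).symm
  by_cases hxy : x₁ = x₂ ∧ y₁ = W₁.negY x₂ y₂
  · rw [Point.add_of_Y_eq hxy.1 hxy.2, T.toFun_some, T.toFun_some,
      Point.add_of_Y_eq (by rw [hxy.1]) (by
        rw [T.special.negY, hxy.2, hxy.1, Affine.negY, T.frey.a₁, T.frey.a₃]; ring)]
    rfl
  · have hxy' : ¬(4 * x₁ + r = 4 * x₂ + r ∧
        8 * y₁ + 4 * x₁ = W₂.negY (4 * x₂ + r) (8 * y₂ + 4 * x₂)) := by
      rintro ⟨hx, hy⟩
      apply hxy
      have hx' : x₁ = x₂ := by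
        have : (4 : K) * (x₁ - x₂) = 0 := by linear_combination hx
        rcases mul_eq_zero.mp this with h | h
        · exact absurd h h4
        · exact sub_eq_zero.mp h
      refine ⟨hx', ?_⟩
      rw [T.special.negY] at hy
      rw [Affine.negY, T.frey.a₁, T.frey.a₃]
      have : (8 : K) * (y₁ - (-y₂ - 1 * x₂ - 0)) = 0 := by
        rw [hx'] at hy
        linear_combination hy
      rcases mul_eq_zero.mp this with h | h
      · exact absurd h h8
      · exact sub_eq_zero.mp h
    rw [Point.add_some hxy, T.toFun_some, T.toFun_some, T.toFun_some, Point.add_some hxy']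
    simp only [Point.some.injEq]
    rw [T.slope_eq h₁ h₂ hxy]
    constructor
    · simp only [addX, T.special.a₁, T.frey.a₁, T.hu]
      ring
    · simp only [addY, negAddY, addX, Affine.negY, T.special.a₁, T.special.a₃, T.frey.a₁,
        T.frey.a₃, T.hu]
      ring

/-- The transfer map as an additive monoid homomorphism. -/
noncomputable def TransferData.hom (T : TransferData W₁ W₂ r) : W₁.Point →+ W₂.Point where
  toFun := T.toFun
  map_zero' := rfl
  map_add' := T.map_add

end Fermat.Agent.S05
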