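import Fermat.Agent.S05.Mult
import Fermat.Agent.S05.Transfer
import Fermat.Agent.S05.Glue

set_option autoImplicit false
set_option linter.unusedSectionVars false
set_option linter.unusedVariables false

namespace Fermat.Agent.S05

open WeierstrassCurve WeierstrassCurve.Affine

variable {k K : Type*} [Field k] [Field K] [DecidableEq K] [Algebra k K]
variable {Γ₀ : Type*} [LinearOrderedCommGroupWithZero Γ₀] (v : Valuation K Γ₀)

/-- Assembly: for a curve `E` over `k` in Frey form, transferred to the special form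
`Y² = X³ + u₀X² + w₀X`, an automorphism `σ` of `K/k` congruent to the identity on the valuation
ring fixes all `p`-torsion points, in the good and in the multiplicative case. -/
theorem frey_form_fixed (E : WeierstrassCurve k) (hE₁ : E.a₁ = 1) (hE₃ : E.a₃ = 0)
    (hE₆ : E.a₆ = 0) (r₀ u₀ w₀ : k)
    (hr : -r₀ ^ 3 + (4 * E.a₂ + 1) * r₀ ^ 2 - 16 * E.a₄ * r₀ = 0)
    (hu₀ : u₀ = 4 * E.a₂ + 1 - 3 * r₀)
    (hw₀ : w₀ = 3 * r₀ ^ 2 - 2 * r₀ * (4 * E.a₂ + 1) + 16 * E.a₄)
    (σ : K ≃ₐ[k] K) (hσ : ∀ x : K, v x ≤ 1 → v (σ x - x) < 1)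
    (h2 : v (2 : K) = 1) {p : ℕ} (hp : p.Prime) (hp2 : p ≠ 2) (hpv : v (p : K) = 1)
    (hu : v (algebraMap k K u₀) ≤ 1) (hw : v (algebraMap k K w₀) ≤ 1)
    (hcase : v (algebraMap k K (w₀ * (u₀ ^ 2 - 4 * w₀))) = 1 ∨
      (v (algebraMap k K u₀) = 1 ∧ v (algebraMap k K w₀) < 1 ∧
        ∃ μ : k, v (algebraMap k K w₀) = v (algebraMap k K μ) ^ p))
    (P : (E⁄K).Point) (hP : p • P = 0) :
    Point.map (W' := E) σ.toAlgHom P = P := by
  let W₂' : WeierstrassCurve k := ⟨0, u₀, 0, w₀, 0⟩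
  have h20 : (2 : K) ≠ 0 := by rintro h0; rw [h0] at h2; simp at h2
  have T : TransferData (E⁄K) (W₂'⁄K) (algebraMap k K r₀) :=
    { frey := ⟨by simp [hE₁], by simp [hE₃], by simp [hE₆]⟩
      special := ⟨by simp [W₂'], by simp [W₂'], by simp [W₂']⟩
      two_ne := h20
      hu := by
        simp only [W₂', map_a₂, hu₀]
        simp [map_sub, map_add, map_mul, map_ofNat]
      hw := by
        simp only [W₂', map_a₂, map_a₄, hw₀]
        simp [map_sub, map_add, map_mul, map_ofNat]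
      hr := by
        have := congrArg (algebraMap k K) hr
        simpa [map_sub, map_add, map_mul, map_ofNat] using this }
  let φ₂ : (W₂'⁄K).Point →+ (W₂'⁄K).Point := Point.map (W' := W₂') σ.toAlgHom
  have S : Setup v (W₂'⁄K) (σ : K →+* K) φ₂ :=
    { special := T.special
      hu := by simpa [W₂'] using hu
      hw := by simpa [W₂'] using hw
      h2 := h2
      hφ := fun x y h => ⟨_, rfl⟩
      hσ := hσ }
  -- the transfer map commutes with the Galois action
  have hcomm : ∀ Q : (E⁄K).Point, T.toFun (Point.map (W' := E) σ.toAlgHom Q) = φ₂ (T.toFun Q) := by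
    rintro (_ | ⟨x, y, h⟩)
    · rfl
    · change Point.some _ _ _ = Point.some _ _ _
      simp only [Point.some.injEq]
      constructor
      · simp [map_add, map_mul, map_ofNat]
      · simp [map_add, map_mul, map_ofNat]
  have hP' : p • T.toFun P = 0 := by
    have := congrArg T.hom hP
    rw [map_nsmul, _root_.map_zero] at this
    exact this
  have hfix : φ₂ (T.toFun P) = T.toFun P := by
    rcases hcase with hgood | ⟨hu1, hw1, μ, hμ⟩
    · refine good_reduction_fixed v S ?_ hpv hP'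
      simpa [W₂', map_sub, map_mul, map_ofNat] using hgood
    · refine mult_reduction_fixed v S (by simpa [W₂'] using hu1) (by simpa [W₂'] using hw1) hp hp2
        hpv (μ := algebraMap k K μ) ?_ (by simpa [W₂'] using hμ) hP'
      exact σ.commutes μ
  apply T.injective
  rw [hcomm, hfix]

/-- Integral version over `ℚ`: the curve `y² + xy = x³ + a₂x² + a₄x` with `4a₂ + 1 = B - A`,
`16a₄ = -AB` for integers `A`, `B`, and an integer shift `r` to a `2`-torsion point. -/
theorem frey_fixed_int {K : Type*} [Field K] [DecidableEq K] [Algebra ℚ K]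
    (A : ValuationSubring K) (E : WeierstrassCurve ℚ) (hE₁ : E.a₁ = 1) (hE₃ : E.a₃ = 0)
    (hE₆ : E.a₆ = 0) (Ai Bi ri ui wi : ℤ) (hE₂ : 4 * E.a₂ + 1 = (Bi : ℚ) - Ai)
    (hE₄ : 16 * E.a₄ = -((Ai : ℚ) * Bi))
    (hu : ui = Bi - Ai - 3 * ri) (hw : wi = 3 * ri ^ 2 - 2 * ri * (Bi - Ai) - Ai * Bi)
    (hcubic : -ri ^ 3 + (Bi - Ai) * ri ^ 2 + Ai * Bi * ri = 0)
    (σ : K ≃ₐ[ℚ] K) (hσ : ∀ x : K, A.valuation x ≤ 1 → A.valuation (σ x - x) < 1)
    {q : ℕ} (hq : q.Prime) (hqv : A.valuation (q : K) < 1) (hq2 : q ≠ 2)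
    {p : ℕ} (hp : p.Prime) (hp2 : p ≠ 2) (hqp : q ≠ p)
    (hcase : ¬ (q : ℤ) ∣ wi * (ui ^ 2 - 4 * wi) ∨
      (¬ (q : ℤ) ∣ ui ∧ (q : ℤ) ∣ wi ∧ ∃ m : ℤ, wi = m ^ p ∨ wi = -m ^ p))
    (P : (E⁄K).Point) (hP : p • P = 0) :
    Point.map (W' := E) σ.toAlgHom P = P := by
  have cast_int : ∀ n : ℤ, algebraMap ℚ K (n : ℚ) = (n : K) := fun n => map_intCast _ n
  have h2 : A.valuation (2 : K) = 1 := by
    have : ¬ (q : ℤ) ∣ (2 : ℤ) := by
      intro h
      have h' : q ∣ 2 := by exact_mod_cast h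
      exact hq2 ((Nat.prime_dvd_prime_iff_eq hq Nat.prime_two).mp h')
    have := val_intCast_eq_one_of_not_dvd A hq hqv this
    simpa using this
  have hpv : A.valuation (p : K) = 1 := by
    have : ¬ (q : ℤ) ∣ (p : ℤ) := by
      intro h
      have h' : q ∣ p := by exact_mod_cast h
      exact hqp ((Nat.prime_dvd_prime_iff_eq hq hp).mp h')
    have := val_intCast_eq_one_of_not_dvd A hq hqv this
    simpa using this
  refine frey_form_fixed A.valuation E hE₁ hE₃ hE₆ (ri : ℚ) (ui : ℚ) (wi : ℚ) ?_ ?_ ?_ σ hσ h2 hp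
    hp2 hpv ?_ ?_ ?_ P hP
  · rw [hE₂]
    have h4 : E.a₄ = -((Ai : ℚ) * Bi) / 16 := by rw [← hE₄]; ring
    rw [h4]
    have := congrArg (Int.cast : ℤ → ℚ) hcubic
    push_cast at this
    linear_combination this
  · rw [hE₂, hu]; push_cast; ring
  · have h4 : 16 * E.a₄ = -((Ai : ℚ) * Bi) := hE₄
    rw [hE₂, h4, hw]; push_cast; ring
  · rw [cast_int]; exact val_intCast_le_one A ui
  · rw [cast_int]; exact val_intCast_le_one A wi
  · rcases hcase with hgood | ⟨hu1, hw1, m, hm⟩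
    · left
      have : algebraMap ℚ K ((wi : ℚ) * ((ui : ℚ) ^ 2 - 4 * (wi : ℚ))) =
          ((wi * (ui ^ 2 - 4 * wi) : ℤ) : K) := by
        rw [← cast_int]; push_cast; ring_nf
      rw [this]
      exact val_intCast_eq_one_of_not_dvd A hq hqv hgood
    · right
      refine ⟨?_, ?_, (m : ℚ), ?_⟩
      · rw [cast_int]; exact val_intCast_eq_one_of_not_dvd A hq hqv hu1
      · rw [cast_int]; exact val_intCast_lt_one_of_dvd A hqv hw1
      · rw [cast_int, cast_int]
        rcases hm with hm | hm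
        · rw [hm, Int.cast_pow, map_pow]
        · rw [hm, Int.cast_neg, Int.cast_pow, Valuation.map_neg, map_pow]

end Fermat.Agent.S05
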