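import Fermat.Agent.S05.Special

set_option autoImplicit false
set_option linter.unusedSectionVars false
set_option linter.unusedVariables false

namespace Fermat.Agent.S05

open WeierstrassCurve WeierstrassCurve.Affine WeierstrassCurve.Affine.Point

variable {K : Type*} [Field K] [DecidableEq K]
variable {Γ₀ : Type*} [LinearOrderedCommGroupWithZero Γ₀] (v : Valuation K Γ₀)
variable {W : Affine K}

lemma val_natCast_le_one (n : ℕ) : v (n : K) ≤ 1 := by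
  induction n with
  | zero => simp
  | succ k ih =>
    rw [Nat.cast_succ]
    exact v.map_add_le ih (by simp)

/-- The `z`-coordinate `x / y` of a point (`0` at infinity). -/
noncomputable def zc : W.Point → K
  | .zero => 0
  | .some x y _ => x / y

/-- Membership in the kernel of reduction `E₁`. -/
def InE1 : W.Point → Prop
  | .zero => True
  | .some x _ _ => 1 < v x

@[simp] lemma zc_zero : zc (0 : W.Point) = 0 := rfl
@[simp] lemma zc_some {x y : K} (h : W.Nonsingular x y) : zc (Point.some _ _ h) = x / y := rfl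
@[simp] lemma inE1_zero : InE1 v (0 : W.Point) := trivial
@[simp] lemma inE1_some {x y : K} (h : W.Nonsingular x y) :
    InE1 v (Point.some _ _ h) ↔ 1 < v x := Iff.rfl

section basic

variable (hW : IsSpecial W) (hu : v W.a₂ ≤ 1) (hw : v W.a₄ ≤ 1)
include hW hu hw

/-- For a point with non-integral `x`, `|y|² = |x|³`. -/
lemma val_y_sq_of_one_lt {x y : K} (h : W.Equation x y) (hx : 1 < v x) :
    v y ^ 2 = v x ^ 3 := by
  have e := (hW.equation_iff x y).mp h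
  have hx0 : v x ≠ 0 := (lt_trans zero_lt_one hx).ne'
  have hxpos : 0 < v x := lt_trans zero_lt_one hx
  rw [← map_pow, e, ← map_pow]
  have h1 : v (W.a₂ * x ^ 2) < v (x ^ 3) := by
    rw [map_mul, map_pow, map_pow]
    calc v W.a₂ * v x ^ 2 ≤ 1 * v x ^ 2 := by gcongr
      _ = v x ^ 2 := one_mul _
      _ < v x ^ 3 := by
        rw [pow_succ (v x) 2]
        exact lt_mul_of_one_lt_right (pow_pos hxpos 2) hx
  have h2 : v (W.a₄ * x) < v (x ^ 3) := by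
    rw [map_mul, map_pow]
    calc v W.a₄ * v x ≤ 1 * v x := by gcongr
      _ = v x := one_mul _
      _ < v x ^ 3 := by
        calc v x = v x * 1 := (mul_one _).symm
          _ < v x * v x ^ 2 := by
            gcongr
            exact one_lt_pow₀ hx (by norm_num)
          _ = v x ^ 3 := (pow_succ' (v x) 2).symm
  rw [add_assoc, v.map_add_eq_of_lt_left]
  exact v.map_add_lt h1 h2

/-- Integral `x` forces integral `y`. -/
lemma val_y_le_one_of_le_one {x y : K} (h : W.Equation x y) (hx : v x ≤ 1) : v y ≤ 1 := by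
  have e := (hW.equation_iff x y).mp h
  have : v y ^ 2 ≤ 1 := by
    rw [← map_pow, e]
    refine v.map_add_le (v.map_add_le ?_ ?_) ?_
    · rw [map_pow]; exact pow_le_one₀ zero_le hx
    · rw [map_mul, map_pow]
      exact mul_le_one' hu (pow_le_one₀ zero_le hx)
    · rw [map_mul]; exact mul_le_one' hw hx
  by_contra hy
  exact absurd this (not_le.mpr (one_lt_pow₀ (not_le.mp hy) (by norm_num)))

end basic

end Fermat.Agent.S05

namespace Fermat.Agent.S05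

open WeierstrassCurve WeierstrassCurve.Affine WeierstrassCurve.Affine.Point

variable {K : Type*} [Field K] [DecidableEq K]
variable {Γ₀ : Type*} [LinearOrderedCommGroupWithZero Γ₀] (v : Valuation K Γ₀)
variable {W : Affine K}

section formal

variable (hW : IsSpecial W) (hu : v W.a₂ ≤ 1) (hw : v W.a₄ ≤ 1)
include hW hu hw

/-- Basic facts about an affine point of `E₁`. -/
lemma e1_facts {x y : K} (h : W.Equation x y) (hx : 1 < v x) :
    x ≠ 0 ∧ y ≠ 0 ∧ v (x / y) ≠ 0 ∧ v (x / y) < 1 ∧ v x = (v (x / y) ^ 2)⁻¹ ∧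
      v y = (v (x / y) ^ 3)⁻¹ := by
  have hyx := val_y_sq_of_one_lt v hW hu hw h hx
  have hxpos : 0 < v x := lt_trans zero_lt_one hx
  have hx0 : x ≠ 0 := by
    rintro rfl; simp at hx
  have hvx0 : v x ≠ 0 := hxpos.ne'
  have hvy0 : v y ≠ 0 := by
    intro h0
    rw [h0] at hyx
    have : v x ^ 3 ≠ 0 := pow_ne_zero 3 hvx0
    exact this (by rw [← hyx]; simp)
  have hy0 : y ≠ 0 := by
    rintro rfl; simp at hvy0
  have hz0 : v (x / y) ≠ 0 := by
    rw [map_div₀]; exact div_ne_zero hvx0 hvy0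
  have e1 : v x = (v (x / y) ^ 2)⁻¹ := by
    rw [map_div₀, div_pow, hyx]
    field_simp
  have e2 : v y = (v (x / y) ^ 3)⁻¹ := by
    rw [map_div₀, div_pow]
    field_simp
    exact hyx.symm
  refine ⟨hx0, hy0, hz0, ?_, e1, e2⟩
  by_contra hge
  have hge' : 1 ≤ v (x / y) := not_lt.mp hge
  have : v x ≤ 1 := by
    rw [e1]
    exact inv_le_one_of_one_le₀ (one_le_pow₀ hge')
  exact absurd hx (not_lt.mpr this)

/-- The rational identity behind the formal group law: with `Y = ℓ X + n` the line through the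
three points, the `z`-coordinates satisfy an explicit relation. -/
lemma vieta_z_identity {u w ℓ n x₁ x₂ x₃ y₁ y₂ y₃ : K}
    (hl1 : y₁ = ℓ * x₁ + n) (hl2 : y₂ = ℓ * x₂ + n) (hl3 : -y₃ = ℓ * x₃ + n)
    (E1 : x₁ + x₂ + x₃ = ℓ ^ 2 - u) (E2 : x₁ * x₂ + x₁ * x₃ + x₂ * x₃ = w - 2 * ℓ * n)
    (E3 : x₁ * x₂ * x₃ = n ^ 2) (hy₁ : y₁ ≠ 0) (hy₂ : y₂ ≠ 0) (hy₃ : y₃ ≠ 0) (hn : n ≠ 0)
    (hD : 1 - u * (ℓ / n) + w * (ℓ / n) ^ 2 ≠ 0) :
    x₃ / y₃ - x₁ / y₁ - x₂ / y₂ =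
      n⁻¹ * (u - 2 * w * (ℓ / n)) / (1 - u * (ℓ / n) + w * (ℓ / n) ^ 2) := by
  have hnum : x₁ * y₂ * (-y₃) + x₂ * y₁ * (-y₃) + x₃ * y₁ * y₂ = n * (2 * ℓ * w - u * n) := by
    rw [hl1, hl2, hl3]
    linear_combination (3 * ℓ ^ 2) * E3 + (2 * ℓ * n) * E2 + n ^ 2 * E1
  have hden : y₁ * y₂ * (-y₃) = n * (n ^ 2 - u * ℓ * n + w * ℓ ^ 2) := by
    rw [hl1, hl2, hl3]
    linear_combination ℓ ^ 3 * E3 + (ℓ ^ 2 * n) * E2 + (ℓ * n ^ 2) * E1
  have hD' : n ^ 2 - u * ℓ * n + w * ℓ ^ 2 ≠ 0 := by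
    intro h0
    apply hD
    field_simp
    linear_combination h0
  have h1 : x₃ / y₃ - x₁ / y₁ - x₂ / y₂ = (u * n - 2 * ℓ * w) / (n ^ 2 - u * ℓ * n + w * ℓ ^ 2) := by
    have h2 : x₃ / y₃ - x₁ / y₁ - x₂ / y₂ =
        (x₁ * y₂ * (-y₃) + x₂ * y₁ * (-y₃) + x₃ * y₁ * y₂) / (-(y₁ * y₂ * (-y₃))) := by
      field_simp
      ring
    rw [h2, hnum, hden]
    field_simp
    ring
  rw [h1]
  field_simp

/-- Key estimate (formal group law to first order): `E₁` is closed under addition and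
`z(P₁ + P₂) ≡ z(P₁) + z(P₂)` modulo `c²` whenever `|z(Pᵢ)| ≤ |c| < 1`. -/
lemma e1_add {P₁ P₂ : W.Point} {c : K} (hc : v c < 1) (h₁ : InE1 v P₁) (h₂ : InE1 v P₂)
    (hz₁ : v (zc P₁) ≤ v c) (hz₂ : v (zc P₂) ≤ v c) :
    InE1 v (P₁ + P₂) ∧ v (zc (P₁ + P₂) - zc P₁ - zc P₂) ≤ v c ^ 2 := by
  rcases P₁ with _ | ⟨x₁, y₁, hP₁⟩
  · have : (Point.zero : W.Point) + P₂ = P₂ := zero_add P₂
    rw [this]
    refine ⟨h₂, ?_⟩
    simp [zc]
  rcases P₂ with _ | ⟨x₂, y₂, hP₂⟩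
  · have : Point.some x₁ y₁ hP₁ + (Point.zero : W.Point) = Point.some x₁ y₁ hP₁ := add_zero _
    rw [this]
    refine ⟨h₁, ?_⟩
    simp [zc]
  have hx₁ : 1 < v x₁ := h₁
  have hx₂ : 1 < v x₂ := h₂
  obtain ⟨hx₁0, hy₁0, ht₁0, ht₁, ex₁, ey₁⟩ := e1_facts v hW hu hw hP₁.1 hx₁
  obtain ⟨hx₂0, hy₂0, ht₂0, ht₂, ex₂, ey₂⟩ := e1_facts v hW hu hw hP₂.1 hx₂
  simp only [zc] at hz₁ hz₂ ⊢
  by_cases hopp : x₁ = x₂ ∧ y₁ = -y₂
  · rw [hW.add_eq_zero hP₁ hP₂ hopp.1 hopp.2]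
    refine ⟨trivial, ?_⟩
    have : zc (0 : W.Point) - x₁ / y₁ - x₂ / y₂ = 0 := by
      rw [hopp.1, hopp.2]
      simp only [zc_zero]
      field_simp
      ring
    change v (zc (0 : W.Point) - x₁ / y₁ - x₂ / y₂) ≤ _
    rw [this]; simp
  obtain ⟨ℓ, n, x₃, y₃, hP₃, hsum, hl1, hl2, hl3, E1, E2, E3⟩ := hW.add_spec hP₁ hP₂ hopp
  rw [hsum]
  set t₁ := v (x₁ / y₁) with ht₁def
  set t₂ := v (x₂ / y₂) with ht₂def
  have hγ0 : v c ≠ 0 := fun h0 => ht₁0 (le_antisymm (h0 ▸ hz₁) zero_le)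
  -- the key relation for `n`
  have F2 : n * (y₁ * x₂ + y₂ * x₁) = x₁ * x₂ * (W.a₄ - x₁ * x₂) := by
    rw [hl1, hl2]
    linear_combination (-(x₁ + x₂)) * E3 + (x₁ * x₂) * E2
  have hx12 : 1 < v (x₁ * x₂) := by
    rw [map_mul]; exact one_lt_mul_of_lt_of_le' hx₁ hx₂.le
  have hvw : v (W.a₄ - x₁ * x₂) = v (x₁ * x₂) :=
    v.map_sub_eq_of_lt_right (lt_of_le_of_lt hw hx12)
  have hwx0 : W.a₄ - x₁ * x₂ ≠ 0 := by
    intro h0
    rw [h0] at hvw
    simp only [_root_.map_zero] at hvw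
    exact (lt_trans zero_lt_one hx12).ne hvw
  have hn0 : n ≠ 0 := by
    rintro rfl
    rw [zero_mul] at F2
    exact mul_ne_zero (mul_ne_zero hx₁0 hx₂0) hwx0 F2.symm
  have Ka : n⁻¹ = (x₁ / y₁ + x₂ / y₂) * (y₁ * y₂) / (x₁ * x₂ * (W.a₄ - x₁ * x₂)) := by
    rw [eq_div_iff (mul_ne_zero (mul_ne_zero hx₁0 hx₂0) hwx0), ← F2]
    field_simp
    ring
  have va : v n⁻¹ = t₁ * t₂ * v (x₁ / y₁ + x₂ / y₂) := by
    rw [Ka, map_div₀, map_mul, map_mul, map_mul, map_mul, hvw, map_mul, ex₁, ex₂, ey₁, ey₂]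
    field_simp
  have hs : v (x₁ / y₁ + x₂ / y₂) ≤ v c := v.map_add_le hz₁ hz₂
  have va_le : v n⁻¹ ≤ v c ^ 3 := by
    rw [va]
    calc t₁ * t₂ * v (x₁ / y₁ + x₂ / y₂) ≤ v c * v c * v c := by gcongr
      _ = v c ^ 3 := by rw [pow_succ, pow_two]
  have Kb : ℓ / n = n⁻¹ * (y₁ / x₁) - x₁⁻¹ := by
    rw [hl1]; field_simp; ring
  have hγ2 : v c ^ 2 < 1 := pow_lt_one₀ zero_le hc (by norm_num)
  have hγ3 : v c ^ 3 ≤ v c ^ 2 := pow_le_pow_of_le_one zero_le hc.le (by norm_num)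
  have vb_le : v (ℓ / n) ≤ v c ^ 2 := by
    rw [Kb]
    refine v.map_sub_le ?_ ?_
    · rw [map_mul, va]
      have : v (y₁ / x₁) = t₁⁻¹ := by
        rw [ht₁def, map_div₀, map_div₀, inv_div]
      rw [this]
      calc t₁ * t₂ * v (x₁ / y₁ + x₂ / y₂) * t₁⁻¹ = t₂ * v (x₁ / y₁ + x₂ / y₂) := by
            field_simp
        _ ≤ v c * v c := by gcongr
        _ = v c ^ 2 := (pow_two _).symm
    · rw [map_inv₀, ex₁, inv_inv]
      exact pow_le_pow_left₀ zero_le hz₁ 2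
  -- the third point lies in `E₁`
  have hx₃ : 1 < v x₃ := by
    by_contra hle
    have hle' : v x₃ ≤ 1 := not_lt.mp hle
    have hy₃ : v y₃ ≤ 1 := val_y_le_one_of_le_one v hW hu hw hP₃.1 hle'
    have hone : (1 : K) = -y₃ * n⁻¹ - (ℓ / n) * x₃ := by
      rw [hl3]; field_simp; ring
    have : v (1 : K) < 1 := by
      rw [hone]
      refine v.map_sub_lt ?_ ?_
      · rw [map_mul, Valuation.map_neg]
        calc v y₃ * v n⁻¹ ≤ 1 * v c ^ 3 := by gcongr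
          _ = v c ^ 3 := one_mul _
          _ < 1 := lt_of_le_of_lt hγ3 hγ2
      · rw [map_mul]
        calc v (ℓ / n) * v x₃ ≤ v c ^ 2 * 1 := by gcongr
          _ = v c ^ 2 := mul_one _
          _ < 1 := hγ2
    simp at this
  refine ⟨hx₃, ?_⟩
  obtain ⟨hx₃0, hy₃0, ht₃0, ht₃, ex₃, ey₃⟩ := e1_facts v hW hu hw hP₃.1 hx₃
  have hub : v (W.a₂ * (ℓ / n)) < 1 := by
    rw [map_mul]
    calc v W.a₂ * v (ℓ / n) ≤ 1 * v c ^ 2 := by gcongr
      _ = v c ^ 2 := one_mul _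
      _ < 1 := hγ2
  have hwb : v (W.a₄ * (ℓ / n) ^ 2) < 1 := by
    rw [map_mul, map_pow]
    calc v W.a₄ * v (ℓ / n) ^ 2 ≤ 1 * (v c ^ 2) ^ 2 :=
          mul_le_mul' hw (pow_le_pow_left₀ zero_le vb_le 2)
      _ = (v c ^ 2) ^ 2 := one_mul _
      _ < 1 := pow_lt_one₀ zero_le hγ2 (by norm_num)
  have hD1 : v (1 - W.a₂ * (ℓ / n) + W.a₄ * (ℓ / n) ^ 2) = 1 := by
    rw [sub_add, ← v.map_one]
    apply v.map_sub_eq_of_lt_left
    rw [v.map_one]
    exact v.map_sub_lt hub hwb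
  have hD : 1 - W.a₂ * (ℓ / n) + W.a₄ * (ℓ / n) ^ 2 ≠ 0 := by
    intro h0; rw [h0] at hD1; simp at hD1
  rw [vieta_z_identity v hW hu hw hl1 hl2 hl3 E1 E2 E3 hy₁0 hy₂0 hy₃0 hn0 hD]
  rw [map_div₀, hD1, div_one, map_mul]
  have h2w : v (W.a₂ - 2 * W.a₄ * (ℓ / n)) ≤ 1 := by
    refine v.map_sub_le hu ?_
    rw [map_mul, map_mul]
    have h2 : v (2 : K) ≤ 1 := by
      have := val_natCast_le_one v (K := K) 2
      simpa using this
    calc v 2 * v W.a₄ * v (ℓ / n) ≤ 1 * 1 * 1 := by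
          gcongr
          exact le_trans vb_le hγ2.le
      _ = 1 := by simp
  calc v n⁻¹ * v (W.a₂ - 2 * W.a₄ * (ℓ / n)) ≤ v c ^ 3 * 1 := by gcongr
    _ = v c ^ 3 := mul_one _
    _ ≤ v c ^ 2 := hγ3

lemma zc_val_lt_one {P : W.Point} (hP : InE1 v P) : v (zc P) < 1 := by
  rcases P with _ | ⟨x, y, h⟩
  · simp [zc]
  · exact (e1_facts v hW hu hw h.1 hP).2.2.2.1

lemma e1_nsmul {P : W.Point} (hP : InE1 v P) (k : ℕ) :
    InE1 v (k • P) ∧ v (zc (k • P) - k * zc P) ≤ v (zc P) ^ 2 := by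
  have hc := zc_val_lt_one v hW hu hw hP
  induction k with
  | zero =>
    rw [zero_smul]
    refine ⟨trivial, ?_⟩
    simp
  | succ k ih =>
    obtain ⟨ih1, ih2⟩ := ih
    have hk : v (zc (k • P)) ≤ v (zc P) := by
      have : zc (k • P) = (zc (k • P) - k * zc P) + k * zc P := by ring
      rw [this]
      refine v.map_add_le ?_ ?_
      · exact le_trans ih2 (pow_le_of_le_one zero_le hc.le (by norm_num))
      · rw [map_mul]
        calc v (k : K) * v (zc P) ≤ 1 * v (zc P) := by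
              gcongr
              exact val_natCast_le_one v k
          _ = v (zc P) := one_mul _
    obtain ⟨h1, h2⟩ := e1_add v hW hu hw hc ih1 hP hk le_rfl
    rw [succ_nsmul]
    refine ⟨h1, ?_⟩
    have : zc (k • P + P) - ((k + 1 : ℕ) : K) * zc P =
        (zc (k • P + P) - zc (k • P) - zc P) + (zc (k • P) - k * zc P) := by
      push_cast; ring
    rw [this]
    exact v.map_add_le h2 ih2

/-- The kernel of reduction has no `p`-torsion when `p` is a unit. -/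
theorem e1_torsion_free {P : W.Point} (hP : InE1 v P) {p : ℕ} (hp : v (p : K) = 1)
    (h : p • P = 0) : P = 0 := by
  rcases P with _ | ⟨x, y, hxy⟩
  · rfl
  · exfalso
    obtain ⟨hx0, hy0, ht0, ht, ex, ey⟩ := e1_facts v hW hu hw hxy.1 hP
    obtain ⟨-, h2⟩ := e1_nsmul v hW hu hw hP p
    rw [h] at h2
    simp only [zc_zero, zc_some, zero_sub, Valuation.map_neg, map_mul, hp, one_mul] at h2
    have : v (x / y) ^ 2 < v (x / y) := by
      calc v (x / y) ^ 2 = v (x / y) * v (x / y) := pow_two _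
        _ < v (x / y) * 1 := by
          exact mul_lt_mul_of_pos_left ht (zero_lt_iff.mpr ht0)
        _ = v (x / y) := mul_one _
    exact absurd h2 (not_le.mpr this)

end formal

end Fermat.Agent.S05
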