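import Fermat.Agent.S05.Reduction

set_option autoImplicit false
set_option linter.unusedSectionVars false
set_option linter.unusedVariables false

namespace Fermat.Agent.S05

open WeierstrassCurve WeierstrassCurve.Affine

variable {K : Type*} [Field K] [DecidableEq K]
variable {Γ₀ : Type*} [LinearOrderedCommGroupWithZero Γ₀] (v : Valuation K Γ₀)
variable {W : Affine K}

section pure

variable {u w : K} (hu1 : v u = 1) (h2 : v (2 : K) = 1)
include hu1 h2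

/-- For a shallow point, `s = y / x` satisfies `s² ≡ u`. -/
lemma shallow_facts {x y : K} (e : y ^ 2 = x ^ 3 + u * x ^ 2 + w * x) (hwx : v w < v x)
    (hx1 : v x < 1) :
    x ≠ 0 ∧ v x ≠ 0 ∧ v ((y / x) ^ 2 - u) < 1 ∧ v (y / x) = 1 := by
  have hvx0 : v x ≠ 0 := (lt_of_le_of_lt zero_le hwx).ne'
  have hx0 : x ≠ 0 := by rintro rfl; simp at hvx0
  have hs : (y / x) ^ 2 - u = x + w / x := by
    field_simp
    linear_combination e
  have hsmall : v ((y / x) ^ 2 - u) < 1 := by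
    rw [hs]
    refine v.map_add_lt hx1 ?_
    rw [map_div₀]
    exact (div_lt_one₀ (zero_lt_iff.mpr hvx0)).mpr hwx
  refine ⟨hx0, hvx0, hsmall, ?_⟩
  have h1 : v ((y / x) ^ 2) = 1 := by
    have : (y / x) ^ 2 = u + ((y / x) ^ 2 - u) := by ring
    rw [this, v.map_add_eq_of_lt_left (by rw [hu1]; exact hsmall), hu1]
  rw [map_pow] at h1
  rcases lt_trichotomy (v (y / x)) 1 with h | h | h
  · exact absurd h1 (pow_lt_one₀ zero_le h (by norm_num)).ne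
  · exact h
  · exact absurd h1 (one_lt_pow₀ h (by norm_num)).ne'

/-- Two square roots of `u` modulo the maximal ideal: same side implies the sum is a unit. -/
lemma val_add_of_same {s₁ s₂ : K} (hs₁ : v s₁ = 1) (h : v (s₁ - s₂) < 1) : v (s₁ + s₂) = 1 := by
  have : s₁ + s₂ = 2 * s₁ - (s₁ - s₂) := by ring
  have h2s : v (2 * s₁) = 1 := by rw [map_mul, h2, hs₁, one_mul]
  rw [this, v.map_sub_eq_of_lt_left (by rw [h2s]; exact h), h2s]

lemma val_sub_of_opp {s₁ s₂ : K} (hs₁ : v s₁ = 1) (h : v (s₁ + s₂) < 1) : v (s₁ - s₂) = 1 := by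
  have : s₁ - s₂ = 2 * s₁ - (s₁ + s₂) := by ring
  have h2s : v (2 * s₁) = 1 := by rw [map_mul, h2, hs₁, one_mul]
  rw [this, v.map_sub_eq_of_lt_left (by rw [h2s]; exact h), h2s]

/-- Dichotomy of sides. -/
lemma side_or {s₁ s₂ : K} (hs₁ : v (s₁ ^ 2 - u) < 1) (hs₂ : v (s₂ ^ 2 - u) < 1) :
    v (s₁ - s₂) < 1 ∨ v (s₁ + s₂) < 1 := by
  by_contra hcon
  rw [not_or, not_lt, not_lt] at hcon
  have : (s₁ - s₂) * (s₁ + s₂) = (s₁ ^ 2 - u) - (s₂ ^ 2 - u) := by ring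
  have hlt : v ((s₁ - s₂) * (s₁ + s₂)) < 1 := by
    rw [this]; exact v.map_sub_lt hs₁ hs₂
  rw [map_mul] at hlt
  exact absurd (one_le_mul_of_one_le_of_one_le hcon.1 hcon.2) (not_le.mpr hlt)

/-- Same-side addition rule (Vieta form). -/
lemma same_side_vieta {ℓ n x₁ x₂ x₃ y₁ y₂ y₃ : K}
    (e₁ : y₁ ^ 2 = x₁ ^ 3 + u * x₁ ^ 2 + w * x₁) (e₂ : y₂ ^ 2 = x₂ ^ 3 + u * x₂ ^ 2 + w * x₂)
    (hl1 : y₁ = ℓ * x₁ + n) (hl2 : y₂ = ℓ * x₂ + n) (hl3 : -y₃ = ℓ * x₃ + n)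
    (E2 : x₁ * x₂ + x₁ * x₃ + x₂ * x₃ = w - 2 * ℓ * n) (E3 : x₁ * x₂ * x₃ = n ^ 2)
    (sh₁ : v w < v x₁ ∧ v x₁ < 1) (sh₂ : v w < v x₂ ∧ v x₂ < 1) (sh₃ : v w < v x₃ ∧ v x₃ < 1)
    (hside : v (y₁ / x₁ - y₂ / x₂) < 1) :
    (v w < v x₁ * v x₂ ∧ v x₃ = v x₁ * v x₂ ∧ v (y₃ / x₃ - y₁ / x₁) < 1) ∨
    (v x₁ * v x₂ < v w ∧ v x₃ * (v x₁ * v x₂) = v w ^ 2 ∧ v (y₃ / x₃ + y₁ / x₁) < 1) := by
  obtain ⟨hx₁0, hvx₁0, hs₁, hvs₁⟩ := shallow_facts v hu1 h2 e₁ sh₁.1 sh₁.2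
  obtain ⟨hx₂0, hvx₂0, hs₂, hvs₂⟩ := shallow_facts v hu1 h2 e₂ sh₂.1 sh₂.2
  have hvx₃0 : v x₃ ≠ 0 := (lt_of_le_of_lt zero_le sh₃.1).ne'
  have hx₃0 : x₃ ≠ 0 := by rintro rfl; simp at hvx₃0
  have hn0 : n ≠ 0 := by
    rintro rfl
    have : x₁ * x₂ * x₃ ≠ 0 := mul_ne_zero (mul_ne_zero hx₁0 hx₂0) hx₃0
    exact this (by rw [E3]; ring)
  have hvn0 : v n ≠ 0 := (v.ne_zero_iff).mpr hn0
  have hsum1 : v (y₁ / x₁ + y₂ / x₂) = 1 := val_add_of_same v hu1 h2 hvs₁ hside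
  have F2 : n * (y₁ * x₂ + y₂ * x₁) = x₁ * x₂ * (w - x₁ * x₂) := by
    rw [hl1, hl2]
    linear_combination (-(x₁ + x₂)) * E3 + (x₁ * x₂) * E2
  have F2' : n * (y₁ / x₁ + y₂ / x₂) = w - x₁ * x₂ := by
    field_simp
    linear_combination F2
  have vn : v n = v (w - x₁ * x₂) := by
    rw [← F2', map_mul, hsum1, mul_one]
  have K3 : y₃ / x₃ = -(y₁ / x₁) + n / x₁ - n / x₃ := by
    have h3 : y₃ = -(ℓ * x₃ + n) := by linear_combination -hl3
    rw [h3, hl1]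
    field_simp
    ring
  have K4 : n / x₃ = x₁ * x₂ / n := by
    field_simp
    linear_combination -E3
  have vE3 : v x₁ * v x₂ * v x₃ = v n ^ 2 := by
    rw [← map_mul, ← map_mul, E3, map_pow]
  rcases lt_trichotomy (v w) (v x₁ * v x₂) with hlt | heq | hgt
  · left
    have vn' : v n = v x₁ * v x₂ := by
      rw [vn, v.map_sub_eq_of_lt_right (by rw [map_mul]; exact hlt), map_mul]
    have hx₃ : v x₃ = v x₁ * v x₂ := by
      rw [vn'] at vE3
      have h12 : v x₁ * v x₂ ≠ 0 := mul_ne_zero hvx₁0 hvx₂0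
      have : v x₁ * v x₂ * v x₃ = v x₁ * v x₂ * (v x₁ * v x₂) := by rw [vE3, pow_two]
      exact mul_left_cancel₀ h12 this
    refine ⟨hlt, hx₃, ?_⟩
    have K5 : (y₁ / x₁ + y₂ / x₂) + n / x₃ = w / n := by
      rw [K4]
      field_simp
      linear_combination F2
    have hK5 : v ((y₁ / x₁ + y₂ / x₂) + n / x₃) < 1 := by
      rw [K5, map_div₀, vn']
      exact (div_lt_one₀ (zero_lt_iff.mpr (mul_ne_zero hvx₁0 hvx₂0))).mpr hlt
    have hnx₁ : v (n / x₁) < 1 := by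
      rw [map_div₀, vn']
      have : v x₁ * v x₂ / v x₁ = v x₂ := by field_simp
      rw [this]; exact sh₂.2
    have : y₃ / x₃ - y₁ / x₁ = -((y₁ / x₁ + y₂ / x₂) + n / x₃) + n / x₁ - (y₁ / x₁ - y₂ / x₂) := by
      rw [K3]; ring
    rw [this]
    refine v.map_sub_lt (v.map_add_lt ?_ hnx₁) hside
    rw [Valuation.map_neg]; exact hK5
  · exfalso
    have vn' : v n ≤ v w := by
      rw [vn]
      refine v.map_sub_le le_rfl ?_
      rw [map_mul, ← heq]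
    have h12 : v x₁ * v x₂ ≠ 0 := mul_ne_zero hvx₁0 hvx₂0
    have : v w * v x₃ ≤ v w * v w := by
      calc v w * v x₃ = v x₁ * v x₂ * v x₃ := by rw [heq]
        _ = v n ^ 2 := vE3
        _ ≤ v w ^ 2 := pow_le_pow_left₀ zero_le vn' 2
        _ = v w * v w := pow_two _
    have hw0 : 0 < v w := by rw [heq]; exact zero_lt_iff.mpr h12
    have := le_of_mul_le_mul_left this hw0
    exact absurd sh₃.1 (not_lt.mpr this)
  · right
    have vn' : v n = v w := by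
      rw [vn, v.map_sub_eq_of_lt_left (by rw [map_mul]; exact hgt)]
    refine ⟨hgt, ?_, ?_⟩
    · rw [mul_comm, vE3, vn']
    · have hnx₁ : v (n / x₁) < 1 := by
        rw [map_div₀, vn']
        exact (div_lt_one₀ (zero_lt_iff.mpr hvx₁0)).mpr sh₁.1
      have hnx₃ : v (n / x₃) < 1 := by
        rw [K4, map_div₀, map_mul, vn']
        exact (div_lt_one₀ (lt_of_le_of_lt zero_le hgt)).mpr hgt
      have : y₃ / x₃ + y₁ / x₁ = n / x₁ - n / x₃ := by rw [K3]; ring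
      rw [this]
      exact v.map_sub_lt hnx₁ hnx₃

/-- Opposite-side addition rule (Vieta form): the deeper point wins. -/
lemma opp_side_vieta {ℓ n x₁ x₂ x₃ y₁ y₂ y₃ : K}
    (e₁ : y₁ ^ 2 = x₁ ^ 3 + u * x₁ ^ 2 + w * x₁) (e₂ : y₂ ^ 2 = x₂ ^ 3 + u * x₂ ^ 2 + w * x₂)
    (hl1 : y₁ = ℓ * x₁ + n) (hl2 : y₂ = ℓ * x₂ + n) (hl3 : -y₃ = ℓ * x₃ + n)
    (E3 : x₁ * x₂ * x₃ = n ^ 2)
    (sh₁ : v w < v x₁ ∧ v x₁ < 1) (sh₂ : v w < v x₂ ∧ v x₂ < 1) (sh₃ : v w < v x₃ ∧ v x₃ < 1)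
    (hside : v (y₁ / x₁ + y₂ / x₂) < 1) (hlt : v x₂ < v x₁) :
    v x₃ * v x₁ = v x₂ ∧ v (y₃ / x₃ - y₂ / x₂) < 1 := by
  obtain ⟨hx₁0, hvx₁0, hs₁, hvs₁⟩ := shallow_facts v hu1 h2 e₁ sh₁.1 sh₁.2
  obtain ⟨hx₂0, hvx₂0, hs₂, hvs₂⟩ := shallow_facts v hu1 h2 e₂ sh₂.1 sh₂.2
  have hvx₃0 : v x₃ ≠ 0 := (lt_of_le_of_lt zero_le sh₃.1).ne'
  have hx₃0 : x₃ ≠ 0 := by rintro rfl; simp at hvx₃0
  have hn0 : n ≠ 0 := by
    rintro rfl
    have : x₁ * x₂ * x₃ ≠ 0 := mul_ne_zero (mul_ne_zero hx₁0 hx₂0) hx₃0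
    exact this (by rw [E3]; ring)
  have hdiff1 : v (y₁ / x₁ - y₂ / x₂) = 1 := val_sub_of_opp v hu1 h2 hvs₁ hside
  have F3 : n * (x₁ - x₂) = x₁ * x₂ * (y₂ / x₂ - y₁ / x₁) := by
    rw [hl1, hl2]
    field_simp
    ring
  have hvd : v (y₂ / x₂ - y₁ / x₁) = 1 := by rw [v.map_sub_swap]; exact hdiff1
  have vn : v n = v x₂ := by
    have h := congrArg v F3
    rw [map_mul, map_mul, map_mul, hvd, mul_one, v.map_sub_eq_of_lt_left hlt] at h
    have : v n * v x₁ = v x₂ * v x₁ := by rw [h, mul_comm]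
    exact mul_right_cancel₀ hvx₁0 this
  have K3 : y₃ / x₃ = -(y₁ / x₁) + n / x₁ - n / x₃ := by
    have h3 : y₃ = -(ℓ * x₃ + n) := by linear_combination -hl3
    rw [h3, hl1]
    field_simp
    ring
  have K4 : n / x₃ = x₁ * x₂ / n := by
    field_simp
    linear_combination -E3
  have vE3 : v x₁ * v x₂ * v x₃ = v n ^ 2 := by
    rw [← map_mul, ← map_mul, E3, map_pow]
  have hx₃ : v x₃ * v x₁ = v x₂ := by
    rw [vn] at vE3
    have : v x₂ * (v x₃ * v x₁) = v x₂ * v x₂ := by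
      rw [← pow_two, ← vE3]
      simp only [mul_comm, mul_left_comm]
    exact mul_left_cancel₀ hvx₂0 this
  refine ⟨hx₃, ?_⟩
  have hnx₁ : v (n / x₁) < 1 := by
    rw [map_div₀, vn]
    exact (div_lt_one₀ (zero_lt_iff.mpr hvx₁0)).mpr hlt
  have hnx₃ : v (n / x₃) < 1 := by
    rw [K4, map_div₀, map_mul, vn]
    have : v x₁ * v x₂ / v x₂ = v x₁ := by field_simp
    rw [this]; exact sh₁.2
  have : y₃ / x₃ - y₂ / x₂ = -(y₁ / x₁ + y₂ / x₂) + n / x₁ - n / x₃ := by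
    rw [K3]; ring
  rw [this]
  refine v.map_sub_lt (v.map_add_lt ?_ hnx₁) hnx₃
  rw [Valuation.map_neg]; exact hside

/-- Opposite sides and equal depth is incompatible with a shallow sum. -/
lemma opp_side_ne {ℓ n x₁ x₂ x₃ y₁ y₂ : K}
    (e₁ : y₁ ^ 2 = x₁ ^ 3 + u * x₁ ^ 2 + w * x₁) (e₂ : y₂ ^ 2 = x₂ ^ 3 + u * x₂ ^ 2 + w * x₂)
    (hl1 : y₁ = ℓ * x₁ + n) (hl2 : y₂ = ℓ * x₂ + n)
    (E3 : x₁ * x₂ * x₃ = n ^ 2)
    (sh₁ : v w < v x₁ ∧ v x₁ < 1) (sh₂ : v w < v x₂ ∧ v x₂ < 1) (sh₃ : v w < v x₃ ∧ v x₃ < 1)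
    (hside : v (y₁ / x₁ + y₂ / x₂) < 1) : v x₁ ≠ v x₂ := by
  intro heq
  obtain ⟨hx₁0, hvx₁0, hs₁, hvs₁⟩ := shallow_facts v hu1 h2 e₁ sh₁.1 sh₁.2
  obtain ⟨hx₂0, hvx₂0, hs₂, hvs₂⟩ := shallow_facts v hu1 h2 e₂ sh₂.1 sh₂.2
  have hdiff1 : v (y₁ / x₁ - y₂ / x₂) = 1 := val_sub_of_opp v hu1 h2 hvs₁ hside
  have F3 : n * (x₁ - x₂) = x₁ * x₂ * (y₂ / x₂ - y₁ / x₁) := by
    rw [hl1, hl2]
    field_simp
    ring
  have hvd : v (y₂ / x₂ - y₁ / x₁) = 1 := by rw [v.map_sub_swap]; exact hdiff1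
  have h := congrArg v F3
  rw [map_mul, map_mul, map_mul, hvd, mul_one, ← heq] at h
  have hle : v (x₁ - x₂) ≤ v x₁ := v.map_sub_le le_rfl heq.ge
  have hn : v x₁ ≤ v n := by
    by_contra hcon
    have hcon' : v n < v x₁ := not_le.mp hcon
    have : v n * v (x₁ - x₂) < v x₁ * v x₁ := by
      calc v n * v (x₁ - x₂) ≤ v n * v x₁ := by gcongr
        _ < v x₁ * v x₁ := mul_lt_mul_of_pos_right hcon' (zero_lt_iff.mpr hvx₁0)
    rw [h] at this
    exact lt_irrefl _ this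
  have vE3 : v x₁ * v x₁ * v x₃ = v n ^ 2 := by
    rw [← map_pow, ← E3, map_mul, map_mul, ← heq]
  have : v x₁ * v x₁ * 1 ≤ v x₁ * v x₁ * v x₃ := by
    rw [vE3, mul_one, ← pow_two]
    exact pow_le_pow_left₀ zero_le hn 2
  have h11 : 0 < v x₁ * v x₁ := mul_pos (zero_lt_iff.mpr hvx₁0) (zero_lt_iff.mpr hvx₁0)
  have := le_of_mul_le_mul_left this h11
  exact absurd sh₃.2 (not_lt.mpr this)

/-- The depth of a shallow point with coordinates `(x, y)` relative to the side `s₀`. -/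
noncomputable def lamK (w s₀ x y : K) : Γ₀ :=
  if v (y / x - s₀) < 1 then v x else v w ^ 2 / v x

omit hu1 h2 in
lemma lamK_pos {w s₀ x y : K} (h : v (y / x - s₀) < 1) : lamK v w s₀ x y = v x := if_pos h

omit hu1 h2 in
lemma lamK_neg {w s₀ x y : K} (h : ¬ v (y / x - s₀) < 1) : lamK v w s₀ x y = v w ^ 2 / v x :=
  if_neg h

/-- Additivity of the depth (Vieta form). -/
lemma lam_vieta {s₀ ℓ n x₁ x₂ x₃ y₁ y₂ y₃ : K} (hs₀ : v (s₀ ^ 2 - u) < 1)
    (e₁ : y₁ ^ 2 = x₁ ^ 3 + u * x₁ ^ 2 + w * x₁) (e₂ : y₂ ^ 2 = x₂ ^ 3 + u * x₂ ^ 2 + w * x₂)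
    (e₃ : y₃ ^ 2 = x₃ ^ 3 + u * x₃ ^ 2 + w * x₃)
    (hl1 : y₁ = ℓ * x₁ + n) (hl2 : y₂ = ℓ * x₂ + n) (hl3 : -y₃ = ℓ * x₃ + n)
    (E2 : x₁ * x₂ + x₁ * x₃ + x₂ * x₃ = w - 2 * ℓ * n) (E3 : x₁ * x₂ * x₃ = n ^ 2)
    (sh₁ : v w < v x₁ ∧ v x₁ < 1) (sh₂ : v w < v x₂ ∧ v x₂ < 1) (sh₃ : v w < v x₃ ∧ v x₃ < 1) :
    lamK v w s₀ x₃ y₃ = lamK v w s₀ x₁ y₁ * lamK v w s₀ x₂ y₂ ∨
    lamK v w s₀ x₃ y₃ * v w ^ 2 = lamK v w s₀ x₁ y₁ * lamK v w s₀ x₂ y₂ := by
  obtain ⟨hx₁0, hvx₁0, hs₁, hvs₁⟩ := shallow_facts v hu1 h2 e₁ sh₁.1 sh₁.2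
  obtain ⟨hx₂0, hvx₂0, hs₂, hvs₂⟩ := shallow_facts v hu1 h2 e₂ sh₂.1 sh₂.2
  obtain ⟨hx₃0, hvx₃0, hs₃, hvs₃⟩ := shallow_facts v hu1 h2 e₃ sh₃.1 sh₃.2
  have E3' : x₂ * x₁ * x₃ = n ^ 2 := by rw [← E3]; ring
  have E2' : x₂ * x₁ + x₂ * x₃ + x₁ * x₃ = w - 2 * ℓ * n := by rw [← E2]; ring
  -- not in side `+` means in side `-`
  have hB : ∀ s : K, v (s ^ 2 - u) < 1 → ¬ v (s - s₀) < 1 → v (s + s₀) < 1 := fun s hs hn =>
    (side_or v hu1 h2 hs hs₀).resolve_left hn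
  have hnA : ∀ s : K, v s = 1 → v (s + s₀) < 1 → ¬ v (s - s₀) < 1 := fun s hs hn => by
    rw [val_sub_of_opp v hu1 h2 hs hn]; exact lt_irrefl _
  by_cases A₁ : v (y₁ / x₁ - s₀) < 1
  · by_cases A₂ : v (y₂ / x₂ - s₀) < 1
    · have hside : v (y₁ / x₁ - y₂ / x₂) < 1 := by
        have : y₁ / x₁ - y₂ / x₂ = (y₁ / x₁ - s₀) - (y₂ / x₂ - s₀) := by ring
        rw [this]; exact v.map_sub_lt A₁ A₂
      rw [lamK_pos v A₁, lamK_pos v A₂]
      rcases same_side_vieta v hu1 h2 e₁ e₂ hl1 hl2 hl3 E2 E3 sh₁ sh₂ sh₃ hside with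
        ⟨hlt, hx₃, hss⟩ | ⟨hgt, hx₃, hss⟩
      · have A₃ : v (y₃ / x₃ - s₀) < 1 := by
          have : y₃ / x₃ - s₀ = (y₃ / x₃ - y₁ / x₁) + (y₁ / x₁ - s₀) := by ring
          rw [this]; exact v.map_add_lt hss A₁
        rw [lamK_pos v A₃]
        exact Or.inl hx₃
      · have B₃ : v (y₃ / x₃ + s₀) < 1 := by
          have : y₃ / x₃ + s₀ = (y₃ / x₃ + y₁ / x₁) - (y₁ / x₁ - s₀) := by ring
          rw [this]; exact v.map_sub_lt hss A₁
        rw [lamK_neg v (hnA _ hvs₃ B₃)]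
        left
        rw [← hx₃]; field_simp
    · have B₂ := hB _ hs₂ A₂
      have hside : v (y₁ / x₁ + y₂ / x₂) < 1 := by
        have : y₁ / x₁ + y₂ / x₂ = (y₁ / x₁ - s₀) + (y₂ / x₂ + s₀) := by ring
        rw [this]; exact v.map_add_lt A₁ B₂
      have hside' : v (y₂ / x₂ + y₁ / x₁) < 1 := by rwa [add_comm]
      rw [lamK_pos v A₁, lamK_neg v A₂]
      rcases lt_trichotomy (v x₂) (v x₁) with hlt | heq | hgt
      · obtain ⟨hx₃, hss⟩ := opp_side_vieta v hu1 h2 e₁ e₂ hl1 hl2 hl3 E3 sh₁ sh₂ sh₃ hside hlt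
        have B₃ : v (y₃ / x₃ + s₀) < 1 := by
          have : y₃ / x₃ + s₀ = (y₃ / x₃ - y₂ / x₂) + (y₂ / x₂ + s₀) := by ring
          rw [this]; exact v.map_add_lt hss B₂
        rw [lamK_neg v (hnA _ hvs₃ B₃)]
        left
        rw [← hx₃]; field_simp
      · exact absurd heq.symm (opp_side_ne v hu1 h2 e₁ e₂ hl1 hl2 E3 sh₁ sh₂ sh₃ hside)
      · obtain ⟨hx₃, hss⟩ := opp_side_vieta v hu1 h2 e₂ e₁ hl2 hl1 hl3 E3' sh₂ sh₁ sh₃ hside' hgt
        have A₃ : v (y₃ / x₃ - s₀) < 1 := by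
          have : y₃ / x₃ - s₀ = (y₃ / x₃ - y₁ / x₁) + (y₁ / x₁ - s₀) := by ring
          rw [this]; exact v.map_add_lt hss A₁
        rw [lamK_pos v A₃]
        right
        rw [← hx₃]; field_simp
  · have B₁ := hB _ hs₁ A₁
    by_cases A₂ : v (y₂ / x₂ - s₀) < 1
    · have hside : v (y₁ / x₁ + y₂ / x₂) < 1 := by
        have : y₁ / x₁ + y₂ / x₂ = (y₁ / x₁ + s₀) + (y₂ / x₂ - s₀) := by ring
        rw [this]; exact v.map_add_lt B₁ A₂
      have hside' : v (y₂ / x₂ + y₁ / x₁) < 1 := by rwa [add_comm]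
      rw [lamK_neg v A₁, lamK_pos v A₂]
      rcases lt_trichotomy (v x₂) (v x₁) with hlt | heq | hgt
      · obtain ⟨hx₃, hss⟩ := opp_side_vieta v hu1 h2 e₁ e₂ hl1 hl2 hl3 E3 sh₁ sh₂ sh₃ hside hlt
        have A₃ : v (y₃ / x₃ - s₀) < 1 := by
          have : y₃ / x₃ - s₀ = (y₃ / x₃ - y₂ / x₂) + (y₂ / x₂ - s₀) := by ring
          rw [this]; exact v.map_add_lt hss A₂
        rw [lamK_pos v A₃]
        right
        rw [← hx₃]; field_simp
      · exact absurd heq.symm (opp_side_ne v hu1 h2 e₁ e₂ hl1 hl2 E3 sh₁ sh₂ sh₃ hside)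
      · obtain ⟨hx₃, hss⟩ := opp_side_vieta v hu1 h2 e₂ e₁ hl2 hl1 hl3 E3' sh₂ sh₁ sh₃ hside' hgt
        have B₃ : v (y₃ / x₃ + s₀) < 1 := by
          have : y₃ / x₃ + s₀ = (y₃ / x₃ - y₁ / x₁) + (y₁ / x₁ + s₀) := by ring
          rw [this]; exact v.map_add_lt hss B₁
        rw [lamK_neg v (hnA _ hvs₃ B₃)]
        left
        rw [← hx₃]; field_simp
    · have B₂ := hB _ hs₂ A₂
      have hside : v (y₁ / x₁ - y₂ / x₂) < 1 := by
        have : y₁ / x₁ - y₂ / x₂ = (y₁ / x₁ + s₀) - (y₂ / x₂ + s₀) := by ring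
        rw [this]; exact v.map_sub_lt B₁ B₂
      rw [lamK_neg v A₁, lamK_neg v A₂]
      rcases same_side_vieta v hu1 h2 e₁ e₂ hl1 hl2 hl3 E2 E3 sh₁ sh₂ sh₃ hside with
        ⟨hlt, hx₃, hss⟩ | ⟨hgt, hx₃, hss⟩
      · have B₃ : v (y₃ / x₃ + s₀) < 1 := by
          have : y₃ / x₃ + s₀ = (y₃ / x₃ - y₁ / x₁) + (y₁ / x₁ + s₀) := by ring
          rw [this]; exact v.map_add_lt hss B₁
        rw [lamK_neg v (hnA _ hvs₃ B₃)]
        right
        rw [hx₃]; field_simp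
      · have A₃ : v (y₃ / x₃ - s₀) < 1 := by
          have : y₃ / x₃ - s₀ = (y₃ / x₃ + y₁ / x₁) - (y₁ / x₁ + s₀) := by ring
          rw [this]; exact v.map_sub_lt hss B₁
        rw [lamK_pos v A₃]
        right
        rw [← hx₃]; field_simp

end pure

section points

/-- `E₀`: the point at infinity or a point with `1 ≤ |x|`. -/
def InE0 : W.Point → Prop
  | .zero => True
  | .some x _ _ => 1 ≤ v x

/-- Shallow points: those reducing to the node with `|w| < |x| < 1`. -/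
def IsShallow : W.Point → Prop
  | .zero => False
  | .some x _ _ => v W.a₄ < v x ∧ v x < 1

/-- The depth of a point relative to the side `s₀`. -/
noncomputable def Lam (s₀ : K) : W.Point → Γ₀
  | .zero => 0
  | .some x y _ => lamK v W.a₄ s₀ x y

variable (hW : IsSpecial W) (hu1 : v W.a₂ = 1) (h2 : v (2 : K) = 1)
include hW hu1 h2

/-- Additivity of the depth modulo `|w|²` for shallow points with shallow sum. -/
lemma lam_add {s₀ : K} (hs₀ : v (s₀ ^ 2 - W.a₂) < 1) {P₁ P₂ : W.Point}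
    (h₁ : IsShallow v P₁) (h₂ : IsShallow v P₂) (h₃ : IsShallow v (P₁ + P₂)) :
    Lam v s₀ (P₁ + P₂) = Lam v s₀ P₁ * Lam v s₀ P₂ ∨
      Lam v s₀ (P₁ + P₂) * v W.a₄ ^ 2 = Lam v s₀ P₁ * Lam v s₀ P₂ := by
  rcases P₁ with _ | ⟨x₁, y₁, hP₁⟩
  · exact h₁.elim
  rcases P₂ with _ | ⟨x₂, y₂, hP₂⟩
  · exact h₂.elim
  by_cases hopp : x₁ = x₂ ∧ y₁ = -y₂
  · rw [hW.add_eq_zero hP₁ hP₂ hopp.1 hopp.2] at h₃
    exact h₃.elim
  obtain ⟨ℓ, n, x₃, y₃, hP₃, hsum, hl1, hl2, hl3, E1, E2, E3⟩ := hW.add_spec hP₁ hP₂ hopp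
  rw [hsum] at h₃ ⊢
  exact lam_vieta v hu1 h2 hs₀ ((hW.equation_iff _ _).mp hP₁.1) ((hW.equation_iff _ _).mp hP₂.1)
    ((hW.equation_iff _ _).mp hP₃.1) hl1 hl2 hl3 E2 E3 h₁ h₂ h₃

/-- Doubling a deep point lands in `E₀`. -/
lemma deep_double (hw1 : v W.a₄ < 1) {x y : K} (h : W.Nonsingular x y) (hx : v x ≤ v W.a₄) :
    InE0 v (Point.some x y h + Point.some x y h) := by
  have e := (hW.equation_iff x y).mp h.1
  have h20 : (2 : K) ≠ 0 := by rintro h0; rw [h0] at h2; simp at h2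
  by_cases hy : y = 0
  · rw [hW.add_eq_zero h h rfl (by rw [hy, neg_zero])]
    trivial
  have hx0 : x ≠ 0 := by
    rintro rfl
    apply hy
    have : y ^ 2 = 0 := by rw [e]; ring
    exact pow_eq_zero_iff (two_ne_zero) |>.mp this
  have hvx0 : v x ≠ 0 := (v.ne_zero_iff).mpr hx0
  have hvy0 : v y ≠ 0 := (v.ne_zero_iff).mpr hy
  have hopp : ¬(x = x ∧ y = -y) := by
    rintro ⟨-, hyy⟩
    apply hy
    have : 2 * y = 0 := by linear_combination hyy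
    rcases mul_eq_zero.mp this with h | h
    · exact absurd h h20
    · exact h
  obtain ⟨ℓ, n, x₃, y₃, hP₃, hsum, hl1, hl2, hl3, E1, E2, E3⟩ := hW.add_spec h h hopp
  rw [hsum]
  change 1 ≤ v x₃
  have F2 : n * (y * x + y * x) = x * x * (W.a₄ - x * x) := by
    rw [hl1]
    linear_combination (-(x + x)) * E3 + (x * x) * E2
  have h1 : 2 * y * n = x * (W.a₄ - x ^ 2) := by
    apply mul_left_cancel₀ hx0
    linear_combination F2
  have key : x₃ * (2 * y) ^ 2 = (W.a₄ - x ^ 2) ^ 2 := by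
    have : x ^ 2 * (x₃ * (2 * y) ^ 2) = x ^ 2 * (W.a₄ - x ^ 2) ^ 2 := by
      linear_combination (4 * y ^ 2) * E3 + (2 * y * n + x * (W.a₄ - x ^ 2)) * h1
    exact mul_left_cancel₀ (pow_ne_zero 2 hx0) this
  have hw0 : 0 < v W.a₄ := lt_of_lt_of_le (zero_lt_iff.mpr hvx0) hx
  have hx2 : v (x ^ 2) < v W.a₄ := by
    rw [map_pow, pow_two]
    calc v x * v x ≤ v W.a₄ * v W.a₄ := mul_le_mul' hx hx
      _ < v W.a₄ * 1 := mul_lt_mul_of_pos_left hw1 hw0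
      _ = v W.a₄ := mul_one _
  have hwx : v (W.a₄ - x ^ 2) = v W.a₄ := v.map_sub_eq_of_lt_left hx2
  have hg : v (x ^ 2 + W.a₂ * x + W.a₄) ≤ v W.a₄ := by
    refine v.map_add_le (v.map_add_le hx2.le ?_) le_rfl
    rw [map_mul, hu1, one_mul]; exact hx
  have hy2 : v y ^ 2 ≤ v W.a₄ ^ 2 := by
    have hyy : y ^ 2 = x * (x ^ 2 + W.a₂ * x + W.a₄) := by rw [e]; ring
    calc v y ^ 2 = v (y ^ 2) := (map_pow _ _ _).symm
      _ = v x * v (x ^ 2 + W.a₂ * x + W.a₄) := by rw [hyy, map_mul]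
      _ ≤ v W.a₄ * v W.a₄ := mul_le_mul' hx hg
      _ = v W.a₄ ^ 2 := (pow_two _).symm
  have hkey := congrArg v key
  rw [map_mul, map_pow, map_mul, h2, one_mul, map_pow, hwx] at hkey
  by_contra hcon
  have hcon' : v x₃ < 1 := not_le.mp hcon
  have : v x₃ * v y ^ 2 < v W.a₄ ^ 2 := by
    calc v x₃ * v y ^ 2 < 1 * v y ^ 2 :=
          mul_lt_mul_of_pos_right hcon' (pow_pos (zero_lt_iff.mpr hvy0) 2)
      _ = v y ^ 2 := one_mul _
      _ ≤ v W.a₄ ^ 2 := hy2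
  rw [hkey] at this
  exact lt_irrefl _ this

/-- If all multiples `j • P`, `0 < j < p`, of a `p`-torsion point are shallow, then the depth of
`P` is commensurable with `|w|²`. -/
lemma shallow_tower {p : ℕ} (hp : 2 ≤ p) {x y : K} (h : W.Nonsingular x y)
    (hP : p • Point.some x y h = 0)
    (hsh : ∀ j : ℕ, 0 < j → j < p → IsShallow v (j • Point.some x y h)) :
    ∃ m : ℕ, v x ^ p = (v W.a₄ ^ 2) ^ (m + 1) := by
  have sh : IsShallow v (Point.some x y h) := by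
    have := hsh 1 one_pos (by omega)
    rwa [one_smul] at this
  have e := (hW.equation_iff x y).mp h.1
  obtain ⟨hx0, hvx0, hs₀, hvs⟩ := shallow_facts v hu1 h2 e sh.1 sh.2
  have hLamP : Lam v (y / x) (Point.some x y h) = v x :=
    lamK_pos v (by rw [sub_self]; simp)
  have claim : ∀ j : ℕ, 1 ≤ j → j < p →
      ∃ m : ℕ, v x ^ j = Lam v (y / x) (j • Point.some x y h) * (v W.a₄ ^ 2) ^ m := by
    intro j hj
    induction j, hj using Nat.le_induction with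
    | base =>
      intro _
      exact ⟨0, by rw [one_smul, hLamP, pow_one, pow_zero, mul_one]⟩
    | succ j hj ih =>
      intro hlt
      obtain ⟨m, hm⟩ := ih (by omega)
      have hs1 := hsh j (by omega) (by omega)
      have hs2 := hsh (j + 1) (by omega) hlt
      rw [succ_nsmul] at hs2 ⊢
      rcases lam_add v hW hu1 h2 hs₀ hs1 sh hs2 with hh | hh
      · refine ⟨m, ?_⟩
        rw [pow_succ, hm, hh, hLamP]
        ac_rfl
      · refine ⟨m + 1, ?_⟩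
        rw [pow_succ, hm, pow_succ (v W.a₄ ^ 2) m]
        calc Lam v (y / x) (j • Point.some x y h) * (v W.a₄ ^ 2) ^ m * v x
            = (Lam v (y / x) (j • Point.some x y h) * Lam v (y / x) (Point.some x y h)) *
                (v W.a₄ ^ 2) ^ m := by rw [hLamP]; ac_rfl
          _ = (Lam v (y / x) (j • Point.some x y h + Point.some x y h) * v W.a₄ ^ 2) *
                (v W.a₄ ^ 2) ^ m := by rw [hh]
          _ = _ := by ac_rfl
  obtain ⟨m, hm⟩ := claim (p - 1) (by omega) (by omega)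
  have hneg : (p - 1) • Point.some x y h = -Point.some x y h := by
    apply eq_neg_of_add_eq_zero_left
    rw [← succ_nsmul]
    have : p - 1 + 1 = p := by omega
    rw [this, hP]
  obtain ⟨h', hneg'⟩ := hW.neg_some h
  rw [hneg, hneg'] at hm
  have hL : Lam v (y / x) (Point.some x (-y) h') = v W.a₄ ^ 2 / v x := by
    apply lamK_neg
    have : -y / x - y / x = -(2 * (y / x)) := by ring
    rw [this, Valuation.map_neg, map_mul, h2, hvs, one_mul]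
    exact lt_irrefl _
  rw [hL] at hm
  refine ⟨m, ?_⟩
  have : p = p - 1 + 1 := by omega
  rw [this, pow_succ, hm, pow_succ (v W.a₄ ^ 2) m]
  field_simp

end points

section main

variable {σ : K →+* K} {φ : W.Point →+ W.Point} (S : Setup v W σ φ)
variable (hu1 : v W.a₂ = 1) (hw1 : v W.a₄ < 1)
include S hu1 hw1

/-- A `p`-torsion point of `E₀` is fixed by `φ`. -/
lemma fixed_of_inE0 {p : ℕ} (hp : v (p : K) = 1) {Q : W.Point} (hQ : InE0 v Q)
    (hpQ : p • Q = 0) : φ Q = Q := by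
  rcases Q with _ | ⟨x, y, h⟩
  · exact _root_.map_zero φ
  have hx : v x ≤ 1 := integral_of_torsion v S hp h hpQ
  have hx1 : v x = 1 := le_antisymm hx hQ
  apply fixed_of_nonsing v S hp h hx _ hpQ
  rintro ⟨hy, hf'⟩
  have e := (S.special.equation_iff x y).mp h.1
  have hg : v (x ^ 2 + W.a₂ * x + W.a₄) < 1 := by
    have hyy : y ^ 2 = x * (x ^ 2 + W.a₂ * x + W.a₄) := by rw [e]; ring
    have := congrArg v hyy
    rw [map_pow, map_mul, hx1, one_mul] at this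
    rw [← this]
    exact pow_lt_one₀ zero_le hy (by norm_num)
  have h3 : 3 * x ^ 2 + 2 * W.a₂ * x + W.a₄ =
      x ^ 2 + (2 * (x ^ 2 + W.a₂ * x + W.a₄) - W.a₄) := by ring
  have hsmall : v (2 * (x ^ 2 + W.a₂ * x + W.a₄) - W.a₄) < 1 := by
    refine v.map_sub_lt ?_ hw1
    rw [map_mul, S.h2, one_mul]; exact hg
  have hx2 : v (x ^ 2) = 1 := by rw [map_pow, hx1, one_pow]
  rw [h3, v.map_add_eq_of_lt_left (by rw [hx2]; exact hsmall), hx2] at hf'
  exact lt_irrefl _ hf'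

/-- If the depth of a shallow point is the valuation of a `σ`-fixed element, then `φ P - P`
lies in `E₁`. -/
lemma shallow_sub_mem_e1 {x y : K} (h : W.Nonsingular x y) (sh : v W.a₄ < v x ∧ v x < 1)
    {μ : K} (hμ : σ μ = μ) {k : ℕ} (hk : v x = v (μ ^ k)) :
    InE1 v (φ (Point.some x y h) - Point.some x y h) := by
  have hW := S.special
  have h2 := S.h2
  have e := (hW.equation_iff x y).mp h.1
  obtain ⟨hx0, hvx0, hs₀, hvs⟩ := shallow_facts v hu1 h2 e sh.1 sh.2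
  obtain ⟨h', hφ⟩ := S.hφ x y h
  rw [hφ]
  have e' := (hW.equation_iff (σ x) (σ y)).mp h'.1
  have hμk0 : μ ^ k ≠ 0 := by
    rw [← v.ne_zero_iff, ← hk]; exact hvx0
  -- `σ x - x` is small compared to `x`
  have hxx : v (σ x - x) < v x := by
    have he : v (x / μ ^ k) = 1 := by
      rw [map_div₀, hk]; exact div_self (by rw [← hk]; exact hvx0)
    have hσe := S.hσ (x / μ ^ k) he.le
    have : σ x - x = μ ^ k * (σ (x / μ ^ k) - x / μ ^ k) := by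
      rw [map_div₀, map_pow, hμ]
      field_simp
    rw [this, map_mul, ← hk]
    calc v x * v (σ (x / μ ^ k) - x / μ ^ k) < v x * 1 :=
          mul_lt_mul_of_pos_left hσe (zero_lt_iff.mpr hvx0)
      _ = v x := mul_one _
  have hvσx : v (σ x) = v x := by
    have : σ x = x + (σ x - x) := by ring
    rw [this, v.map_add_eq_of_lt_left hxx]
  have hσx0 : σ x ≠ 0 := by
    rw [← v.ne_zero_iff, hvσx]; exact hvx0
  have hss : v (σ y / σ x - y / x) < 1 := by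
    have := S.hσ (y / x) hvs.le
    rwa [map_div₀] at this
  by_cases hQP : σ x = x ∧ σ y = y
  · have heq : Point.some (σ x) (σ y) h' = Point.some x y h := by
      simp only [Point.some.injEq]; exact hQP
    rw [heq, sub_self]; trivial
  obtain ⟨h₁', hneg⟩ := hW.neg_some h
  rw [sub_eq_add_neg, hneg]
  have hopp : ¬(σ x = x ∧ σ y = -(-y)) := by rwa [neg_neg]
  obtain ⟨ℓ, n, x₃, y₃, hP₃, hsum, hl1, hl2, hl3, E1, E2, E3⟩ := hW.add_spec h' h₁' hopp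
  rw [hsum]
  change 1 < v x₃
  have hside : v (-y / x - σ y / σ x) = 1 := by
    have : -y / x - σ y / σ x = -(2 * (y / x) + (σ y / σ x - y / x)) := by ring
    have h2s : v (2 * (y / x)) = 1 := by rw [map_mul, h2, hvs, one_mul]
    rw [this, Valuation.map_neg, v.map_add_eq_of_lt_left (by rw [h2s]; exact hss), h2s]
  have F3 : n * (σ x - x) = σ x * x * (-y / x - σ y / σ x) := by
    rw [hl1]
    have : -y = ℓ * x + n := hl2
    have hy : y = -(ℓ * x + n) := by linear_combination -hl2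
    rw [hy]
    field_simp
    ring
  have hne : σ x ≠ x := by
    intro hx
    have hy : σ y ≠ y := fun hy => hQP ⟨hx, hy⟩
    rw [hx, sub_self, mul_zero] at F3
    have : x * x * (-y / x - σ y / x) ≠ 0 := by
      refine mul_ne_zero (mul_ne_zero hx0 hx0) ?_
      intro h0
      rw [hx] at hside
      rw [h0] at hside
      simp at hside
    exact this F3.symm
  have hd0 : v (σ x - x) ≠ 0 := (v.ne_zero_iff).mpr (sub_ne_zero.mpr hne)
  have hF3 := congrArg v F3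
  rw [map_mul, map_mul, map_mul, hside, mul_one, hvσx] at hF3
  have hn : v x < v n := by
    by_contra hcon
    have hcon' : v n ≤ v x := not_lt.mp hcon
    have : v n * v (σ x - x) < v x * v x := by
      calc v n * v (σ x - x) ≤ v x * v (σ x - x) := by gcongr
        _ < v x * v x := mul_lt_mul_of_pos_left hxx (zero_lt_iff.mpr hvx0)
    rw [hF3] at this
    exact lt_irrefl _ this
  have vE3 : v x * v x * v x₃ = v n ^ 2 := by
    rw [← map_pow, ← E3, map_mul, map_mul, hvσx]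
  by_contra hcon
  have hcon' : v x₃ ≤ 1 := not_lt.mp hcon
  have : v n ^ 2 ≤ v x ^ 2 := by
    rw [← vE3, pow_two]
    calc v x * v x * v x₃ ≤ v x * v x * 1 := by gcongr
      _ = v x * v x := mul_one _
  exact absurd this (not_le.mpr (pow_lt_pow_left₀ hn zero_le (by norm_num)))

/-- Multiplicative reduction with `|w| = |μ|ᵖ` for a `σ`-fixed `μ`: every `p`-torsion point is
fixed by `φ` (`p` an odd prime which is a unit). -/
theorem mult_reduction_fixed {p : ℕ} (hp : p.Prime) (hp2 : p ≠ 2) (hpv : v (p : K) = 1)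
    {μ : K} (hμ : σ μ = μ) (hwμ : v W.a₄ = v μ ^ p) {P : W.Point} (hP : p • P = 0) :
    φ P = P := by
  have hW := S.special
  have h2 := S.h2
  by_cases hex : ∃ k : ℕ, Nat.Coprime k p ∧ InE0 v (k • P)
  · obtain ⟨k, hk, hE0⟩ := hex
    apply fixed_of_coprime_smul v S hk hP
    apply fixed_of_inE0 v S hu1 hw1 hpv hE0
    rw [smul_comm, hP, smul_zero]
  have hall : ∀ k : ℕ, Nat.Coprime k p → ¬ InE0 v (k • P) := fun k hk hE => hex ⟨k, hk, hE⟩
  rcases P with _ | ⟨x, y, h⟩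
  · exact _root_.map_zero φ
  have hcop : ∀ j : ℕ, 0 < j → j < p → Nat.Coprime j p := fun j hj hjp =>
    Nat.Coprime.symm ((Nat.Prime.coprime_iff_not_dvd hp).mpr (Nat.not_dvd_of_pos_of_lt hj hjp))
  have h2p : Nat.Coprime 2 p := (Nat.coprime_primes Nat.prime_two hp).mpr (Ne.symm hp2)
  have hsh : ∀ j : ℕ, 0 < j → j < p → IsShallow v (j • Point.some x y h) := by
    intro j hj hjp
    have h1 := hall j (hcop j hj hjp)
    have h2' := hall (2 * j) (Nat.Coprime.mul_left h2p (hcop j hj hjp))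
    rw [mul_smul, two_nsmul] at h2'
    generalize j • Point.some x y h = Q at h1 h2'
    rcases Q with _ | ⟨x', y', hQ⟩
    · exact absurd trivial h1
    · have hx' : v x' < 1 := not_le.mp h1
      refine ⟨?_, hx'⟩
      by_contra hcon
      exact h2' (deep_double v hW hu1 h2 hw1 hQ (not_lt.mp hcon))
  obtain ⟨m, hm⟩ := shallow_tower v hW hu1 h2 hp.two_le h hP hsh
  have sh : IsShallow v (Point.some x y h) := by
    have := hsh 1 one_pos hp.one_lt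
    rwa [one_smul] at this
  have hk : v x = v (μ ^ (2 * (m + 1))) := by
    have : v x ^ p = (v (μ ^ (2 * (m + 1)))) ^ p := by
      rw [hm, hwμ, map_pow, ← pow_mul, ← pow_mul, ← pow_mul]
      congr 1
      ring
    exact (pow_left_inj₀ zero_le zero_le hp.ne_zero).mp this
  apply fixed_of_sub_mem_e1 v S hpv hP
  exact shallow_sub_mem_e1 v S hu1 hw1 h sh hμ hk

end main

end Fermat.Agent.S05
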