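import Fermat.Agent.S05.Formal

set_option autoImplicit false
set_option linter.unusedSectionVars false
set_option linter.unusedVariables false

namespace Fermat.Agent.S05

open WeierstrassCurve WeierstrassCurve.Affine WeierstrassCurve.Affine.Point

variable {K : Type*} [Field K] [DecidableEq K]
variable {Γ₀ : Type*} [LinearOrderedCommGroupWithZero Γ₀] (v : Valuation K Γ₀)
variable {W : Affine K}

/-- The standing hypotheses: a special-form curve with integral coefficients, residue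
characteristic `≠ 2`, and an additive map `φ` on points induced by a ring endomorphism `σ` which
is congruent to the identity modulo the maximal ideal of the valuation ring. -/
structure Setup (v : Valuation K Γ₀) (W : Affine K) (σ : K →+* K) (φ : W.Point →+ W.Point) :
    Prop where
  special : IsSpecial W
  hu : v W.a₂ ≤ 1
  hw : v W.a₄ ≤ 1
  h2 : v (2 : K) = 1
  hφ : ∀ (x y : K) (h : W.Nonsingular x y), ∃ h' : W.Nonsingular (σ x) (σ y),
    φ (Point.some x y h) = Point.some (σ x) (σ y) h'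
  hσ : ∀ x : K, v x ≤ 1 → v (σ x - x) < 1

section reduction

variable (hW : IsSpecial W) (hu : v W.a₂ ≤ 1) (hw : v W.a₄ ≤ 1) (h2 : v (2 : K) = 1)
include hW hu hw h2

/-- Two integral points with the same nonsingular reduction differ by a point of `E₁`. -/
lemma sub_mem_e1 {x₁ y₁ x₂ y₂ : K} (h₁ : W.Nonsingular x₁ y₁) (h₂ : W.Nonsingular x₂ y₂)
    (hx₁ : v x₁ ≤ 1) (hx : v (x₂ - x₁) < 1) (hy : v (y₂ - y₁) < 1)
    (hns : ¬(v y₁ < 1 ∧ v (3 * x₁ ^ 2 + 2 * W.a₂ * x₁ + W.a₄) < 1)) :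
    InE1 v (Point.some _ _ h₂ - Point.some _ _ h₁) := by
  by_cases hQP : x₂ = x₁ ∧ y₂ = y₁
  · obtain ⟨rfl, rfl⟩ := hQP
    rw [sub_self]; trivial
  obtain ⟨h₁', hneg⟩ := hW.neg_some h₁
  rw [sub_eq_add_neg, hneg]
  have hopp : ¬(x₂ = x₁ ∧ y₂ = -(-y₁)) := by rwa [neg_neg]
  obtain ⟨ℓ, n, x₃, y₃, hP₃, hsum, hl1, hl2, hl3, E1, E2, E3⟩ := hW.add_spec h₂ h₁' hopp
  rw [hsum]
  have hy₁ : v y₁ ≤ 1 := val_y_le_one_of_le_one v hW hu hw h₁.1 hx₁
  have hx₂ : v x₂ ≤ 1 := by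
    have : x₂ = x₁ + (x₂ - x₁) := by ring
    rw [this]; exact v.map_add_le hx₁ hx.le
  have A : ℓ * (x₂ - x₁) = y₂ + y₁ := by
    linear_combination hl2 - hl1
  have B : ℓ * (y₂ - y₁) = x₂ ^ 2 + x₁ * x₂ + x₁ ^ 2 + W.a₂ * (x₁ + x₂) + W.a₄ := by
    rw [hl1]
    have : y₁ = -(ℓ * x₁ + n) := by linear_combination -hl2
    rw [this]
    linear_combination E2 - (x₁ + x₂) * E1
  have hℓ : 1 < v ℓ := by
    by_contra hle
    have hle' : v ℓ ≤ 1 := not_lt.mp hle
    by_cases hy1 : v y₁ < 1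
    · have h3 : ¬ v (3 * x₁ ^ 2 + 2 * W.a₂ * x₁ + W.a₄) < 1 := fun h => hns ⟨hy1, h⟩
      have hM : x₂ ^ 2 + x₁ * x₂ + x₁ ^ 2 + W.a₂ * (x₁ + x₂) + W.a₄ =
          (3 * x₁ ^ 2 + 2 * W.a₂ * x₁ + W.a₄) + (x₂ - x₁) * (x₂ + 2 * x₁ + W.a₂) := by ring
      have hsmall : v ((x₂ - x₁) * (x₂ + 2 * x₁ + W.a₂)) < 1 := by
        rw [map_mul]
        have : v (x₂ + 2 * x₁ + W.a₂) ≤ 1 := by
          refine v.map_add_le (v.map_add_le hx₂ ?_) hu
          rw [map_mul, h2, one_mul]; exact hx₁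
        calc v (x₂ - x₁) * v (x₂ + 2 * x₁ + W.a₂) ≤ v (x₂ - x₁) * 1 := by gcongr
          _ = v (x₂ - x₁) := mul_one _
          _ < 1 := hx
      have hMv : 1 ≤ v (x₂ ^ 2 + x₁ * x₂ + x₁ ^ 2 + W.a₂ * (x₁ + x₂) + W.a₄) := by
        rw [hM, v.map_add_eq_of_lt_left (lt_of_lt_of_le hsmall (not_lt.mp h3))]
        exact not_lt.mp h3
      rw [← B, map_mul] at hMv
      have : v ℓ * v (y₂ - y₁) < 1 := by
        calc v ℓ * v (y₂ - y₁) ≤ 1 * v (y₂ - y₁) := by gcongr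
          _ = v (y₂ - y₁) := one_mul _
          _ < 1 := hy
      exact absurd hMv (not_le.mpr this)
    · have hy1' : 1 ≤ v y₁ := not_lt.mp hy1
      have hyy : y₂ + y₁ = 2 * y₁ + (y₂ - y₁) := by ring
      have h2y : v (2 * y₁) = v y₁ := by rw [map_mul, h2, one_mul]
      have : 1 ≤ v (y₂ + y₁) := by
        rw [hyy, v.map_add_eq_of_lt_left (by rw [h2y]; exact lt_of_lt_of_le hy hy1'), h2y]
        exact hy1'
      rw [← A, map_mul] at this
      have hlt : v ℓ * v (x₂ - x₁) < 1 := by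
        calc v ℓ * v (x₂ - x₁) ≤ 1 * v (x₂ - x₁) := by gcongr
          _ = v (x₂ - x₁) := one_mul _
          _ < 1 := hx
      exact absurd this (not_le.mpr hlt)
  change 1 < v x₃
  have hx₃ : x₃ = ℓ ^ 2 - (W.a₂ + x₂ + x₁) := by linear_combination E1
  have hℓ2 : 1 < v (ℓ ^ 2) := by rw [map_pow]; exact one_lt_pow₀ hℓ (by norm_num)
  have hle : v (W.a₂ + x₂ + x₁) ≤ 1 := v.map_add_le (v.map_add_le hu hx₂) hx₁
  rw [hx₃, v.map_sub_eq_of_lt_left (lt_of_le_of_lt hle hℓ2)]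
  exact hℓ2

end reduction

section fixed

variable {σ : K →+* K} {φ : W.Point →+ W.Point} (S : Setup v W σ φ)
include S

/-- If `φ P - P` lies in `E₁` and `P` is `p`-torsion with `p` a unit, then `φ P = P`. -/
lemma fixed_of_sub_mem_e1 {p : ℕ} (hp : v (p : K) = 1) {P : W.Point} (hP : p • P = 0)
    (h : InE1 v (φ P - P)) : φ P = P := by
  have hp0 : p • (φ P - P) = 0 := by
    rw [smul_sub, ← map_nsmul, hP, _root_.map_zero, sub_zero]
  exact sub_eq_zero.mp (e1_torsion_free v S.special S.hu S.hw h hp hp0)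

/-- A `p`-torsion point (with `p` a unit) has integral coordinates. -/
lemma integral_of_torsion {p : ℕ} (hp : v (p : K) = 1) {x y : K} (h : W.Nonsingular x y)
    (hP : p • Point.some x y h = 0) : v x ≤ 1 := by
  by_contra hx
  have : InE1 v (Point.some x y h) := not_le.mp hx
  have := e1_torsion_free v S.special S.hu S.hw this hp hP
  exact Point.some_ne_zero h this

/-- An integral `p`-torsion point with nonsingular reduction is fixed by `φ`. -/
lemma fixed_of_nonsing {p : ℕ} (hp : v (p : K) = 1) {x y : K} (h : W.Nonsingular x y)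
    (hx : v x ≤ 1)
    (hns : ¬(v y < 1 ∧ v (3 * x ^ 2 + 2 * W.a₂ * x + W.a₄) < 1))
    (hP : p • Point.some x y h = 0) : φ (Point.some x y h) = Point.some x y h := by
  apply fixed_of_sub_mem_e1 v S hp hP
  obtain ⟨h', hφ⟩ := S.hφ x y h
  rw [hφ]
  have hy : v y ≤ 1 := val_y_le_one_of_le_one v S.special S.hu S.hw h.1 hx
  exact sub_mem_e1 v S.special S.hu S.hw S.h2 h h' hx (S.hσ x hx) (S.hσ y hy) hns

/-- If a multiple `k • P` with `k` prime to `p` is fixed by `φ` and `P` is `p`-torsion, then `P`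
is fixed by `φ`. -/
lemma fixed_of_coprime_smul {p k : ℕ} (hk : Nat.Coprime k p) {P : W.Point} (hP : p • P = 0)
    (h : φ (k • P) = k • P) : φ P = P := by
  have h1 : k • (φ P - P) = 0 := by
    rw [smul_sub, ← map_nsmul, h, sub_self]
  have h2 : p • (φ P - P) = 0 := by
    rw [smul_sub, ← map_nsmul, hP, _root_.map_zero, sub_zero]
  have d1 := addOrderOf_dvd_of_nsmul_eq_zero h1
  have d2 := addOrderOf_dvd_of_nsmul_eq_zero h2
  have : addOrderOf (φ P - P) = 1 := Nat.eq_one_of_dvd_coprimes hk d1 d2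
  exact sub_eq_zero.mp (AddMonoid.addOrderOf_eq_one_iff.mp this)

/-- The discriminant identity: `f` and `f'` generate the discriminant. -/
lemma disc_identity (u w x : K) :
    (-4 * u ^ 3 + 15 * u * w + (-6 * u ^ 2 + 18 * w) * x) * (x ^ 3 + u * x ^ 2 + w * x) +
      (w * (u ^ 2 - 4 * w) + u * (2 * u ^ 2 - 7 * w) * x + (2 * u ^ 2 - 6 * w) * x ^ 2) *
        (3 * x ^ 2 + 2 * u * x + w) = w ^ 2 * (u ^ 2 - 4 * w) := by
  ring

/-- Good reduction: every `p`-torsion point is fixed by `φ`. -/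
theorem good_reduction_fixed (hΔ : v (W.a₄ * (W.a₂ ^ 2 - 4 * W.a₄)) = 1) {p : ℕ}
    (hp : v (p : K) = 1) {P : W.Point} (hP : p • P = 0) : φ P = P := by
  rcases P with _ | ⟨x, y, h⟩
  · exact _root_.map_zero φ
  have hx : v x ≤ 1 := integral_of_torsion v S hp h hP
  apply fixed_of_nonsing v S hp h hx _ hP
  rintro ⟨hy, hf'⟩
  have e := (S.special.equation_iff x y).mp h.1
  have hn : ∀ n : ℕ, v (n : K) ≤ 1 := val_natCast_le_one v
  have hu := S.hu
  have hw := S.hw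
  set u := W.a₂
  set w := W.a₄
  have hy2 : v (x ^ 3 + u * x ^ 2 + w * x) < 1 := by
    rw [← e, map_pow]
    exact pow_lt_one₀ zero_le hy (by norm_num)
  have hu2 : v (u ^ 2) ≤ 1 := by rw [map_pow]; exact pow_le_one₀ zero_le hu
  have hu3 : v (u ^ 3) ≤ 1 := by rw [map_pow]; exact pow_le_one₀ zero_le hu
  have hx2 : v (x ^ 2) ≤ 1 := by rw [map_pow]; exact pow_le_one₀ zero_le hx
  have mul1 : ∀ a b : K, v a ≤ 1 → v b ≤ 1 → v (a * b) ≤ 1 := fun a b ha hb => by
    rw [map_mul]; exact mul_le_one' ha hb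
  have c4 : v (4 : K) ≤ 1 := by simpa using hn 4
  have c15 : v (15 : K) ≤ 1 := by simpa using hn 15
  have c6 : v (6 : K) ≤ 1 := by simpa using hn 6
  have c18 : v (18 : K) ≤ 1 := by simpa using hn 18
  have c2 : v (2 : K) ≤ 1 := by simpa using hn 2
  have c7 : v (7 : K) ≤ 1 := by simpa using hn 7
  have hA : v (-4 * u ^ 3 + 15 * u * w + (-6 * u ^ 2 + 18 * w) * x) ≤ 1 := by
    refine v.map_add_le (v.map_add_le ?_ ?_) ?_
    · rw [neg_mul, Valuation.map_neg]; exact mul1 _ _ c4 hu3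
    · exact mul1 _ _ (mul1 _ _ c15 hu) hw
    · refine mul1 _ _ (v.map_add_le ?_ (mul1 _ _ c18 hw)) hx
      rw [neg_mul, Valuation.map_neg]; exact mul1 _ _ c6 hu2
  have hB : v (w * (u ^ 2 - 4 * w) + u * (2 * u ^ 2 - 7 * w) * x + (2 * u ^ 2 - 6 * w) * x ^ 2)
      ≤ 1 := by
    refine v.map_add_le (v.map_add_le ?_ ?_) ?_
    · exact mul1 _ _ hw (v.map_sub_le hu2 (mul1 _ _ c4 hw))
    · exact mul1 _ _ (mul1 _ _ hu (v.map_sub_le (mul1 _ _ c2 hu2) (mul1 _ _ c7 hw))) hx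
    · exact mul1 _ _ (v.map_sub_le (mul1 _ _ c2 hu2) (mul1 _ _ c6 hw)) hx2
  have hdisc : v (w ^ 2 * (u ^ 2 - 4 * w)) < 1 := by
    rw [← disc_identity v S u w x]
    refine v.map_add_lt ?_ ?_
    · rw [map_mul]
      calc _ ≤ 1 * v (x ^ 3 + u * x ^ 2 + w * x) := by gcongr
        _ = _ := one_mul _
        _ < 1 := hy2
    · rw [map_mul]
      calc _ ≤ 1 * v (3 * x ^ 2 + 2 * u * x + w) := by gcongr
        _ = _ := one_mul _
        _ < 1 := hf'
  have : v (w ^ 2 * (u ^ 2 - 4 * w)) = v w := by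
    have : w ^ 2 * (u ^ 2 - 4 * w) = w * (w * (u ^ 2 - 4 * w)) := by ring
    rw [this, map_mul, hΔ, mul_one]
  rw [this] at hdisc
  have : v (w * (u ^ 2 - 4 * w)) < 1 := by
    rw [map_mul]
    calc v w * v (u ^ 2 - 4 * w) ≤ v w * 1 := by
          gcongr
          exact v.map_sub_le hu2 (mul1 _ _ c4 hw)
      _ = v w := mul_one _
      _ < 1 := hdisc
  rw [hΔ] at this
  exact lt_irrefl _ this

end fixed

end Fermat.Agent.S05
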