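import Mathlib.AlgebraicGeometry.EllipticCurve.Affine.Point
import Mathlib.RingTheory.Valuation.Basic

set_option autoImplicit false
set_option linter.unusedSectionVars false
set_option linter.unusedVariables false

namespace Fermat.Agent.S05

open WeierstrassCurve WeierstrassCurve.Affine WeierstrassCurve.Affine.Point

variable {K : Type*} [Field K] [DecidableEq K]

/-- Weierstrass curves of the special form `Y² = X³ + uX² + wX`. -/
structure IsSpecial (W : Affine K) : Prop where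
  a₁ : W.a₁ = 0
  a₃ : W.a₃ = 0
  a₆ : W.a₆ = 0

variable {W : Affine K}

lemma IsSpecial.equation_iff (hW : IsSpecial W) (x y : K) :
    W.Equation x y ↔ y ^ 2 = x ^ 3 + W.a₂ * x ^ 2 + W.a₄ * x := by
  rw [Affine.equation_iff, hW.a₁, hW.a₃, hW.a₆]; simp

lemma IsSpecial.negY (hW : IsSpecial W) (x y : K) : W.negY x y = -y := by
  simp [Affine.negY, hW.a₁, hW.a₃]

lemma IsSpecial.neg_some (hW : IsSpecial W) {x y : K} (h : W.Nonsingular x y) :
    ∃ h' : W.Nonsingular x (-y), -Point.some _ _ h = Point.some _ _ h' := by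
  have h' : W.Nonsingular x (-y) := by
    have := (nonsingular_neg (W' := W) x y).mpr h
    rwa [hW.negY] at this
  refine ⟨h', ?_⟩
  rw [Point.neg_some]
  congr 1
  exact hW.negY x y

/-- Uniform description of the sum of two affine points which are not opposite:
the three points `P₁, P₂, -(P₁+P₂)` lie on a line `Y = ℓ X + n` and Vieta's relations hold. -/
lemma IsSpecial.add_spec (hW : IsSpecial W) {x₁ y₁ x₂ y₂ : K} (h₁ : W.Nonsingular x₁ y₁)
    (h₂ : W.Nonsingular x₂ y₂) (hxy : ¬(x₁ = x₂ ∧ y₁ = -y₂)) :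
    ∃ (ℓ n x₃ y₃ : K) (h₃ : W.Nonsingular x₃ y₃),
      Point.some _ _ h₁ + Point.some _ _ h₂ = Point.some _ _ h₃ ∧
      y₁ = ℓ * x₁ + n ∧ y₂ = ℓ * x₂ + n ∧ -y₃ = ℓ * x₃ + n ∧
      x₁ + x₂ + x₃ = ℓ ^ 2 - W.a₂ ∧
      x₁ * x₂ + x₁ * x₃ + x₂ * x₃ = W.a₄ - 2 * ℓ * n ∧
      x₁ * x₂ * x₃ = n ^ 2 := by
  have e₁ := (hW.equation_iff x₁ y₁).mp h₁.1
  have e₂ := (hW.equation_iff x₂ y₂).mp h₂.1
  have hxy' : ¬(x₁ = x₂ ∧ y₁ = W.negY x₂ y₂) := by rwa [hW.negY]
  by_cases hx : x₁ = x₂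
  · subst hx
    have hy : y₁ = y₂ := by
      rcases Y_eq_of_X_eq h₁.1 h₂.1 rfl with h | h
      · exact h
      · exact absurd ⟨rfl, by rwa [hW.negY] at h⟩ hxy
    subst hy
    have hy0 : y₁ ≠ W.negY x₁ y₁ := fun h => hxy ⟨rfl, by rwa [hW.negY] at h⟩
    have h2y : 2 * y₁ ≠ 0 := by
      rw [hW.negY] at hy0
      intro h
      apply hy0
      linear_combination h
    have hs : W.slope x₁ x₁ y₁ y₁ = (3 * x₁ ^ 2 + 2 * W.a₂ * x₁ + W.a₄) / (2 * y₁) := by
      rw [slope_of_Y_ne rfl hy0, hW.negY, hW.a₁]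
      congr 1 <;> ring
    refine ⟨W.slope x₁ x₁ y₁ y₁, y₁ - W.slope x₁ x₁ y₁ y₁ * x₁, _, _,
      nonsingular_add h₁ h₂ hxy', add_some hxy', ?_, ?_, ?_, ?_, ?_, ?_⟩
    · ring
    · ring
    · simp only [addY, negAddY, hW.negY, addX, hW.a₁]
      ring
    · simp only [addX, hW.a₁]; ring
    · simp only [addX, hW.a₁, hs]
      grind
    · simp only [addX, hW.a₁, hs]
      grind
  · have hx' : x₁ - x₂ ≠ 0 := sub_ne_zero.mpr hx
    refine ⟨W.slope x₁ x₂ y₁ y₂, y₁ - W.slope x₁ x₂ y₁ y₂ * x₁, _, _,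
      nonsingular_add h₁ h₂ hxy', add_some hxy', ?_, ?_, ?_, ?_, ?_, ?_⟩
    · ring
    · rw [slope_of_X_ne hx]
      field_simp
      ring
    · simp only [addY, negAddY, hW.negY, addX, hW.a₁]
      ring
    · simp only [addX, hW.a₁]; ring
    · simp only [addX, hW.a₁, slope_of_X_ne hx]
      grind
    · simp only [addX, hW.a₁, slope_of_X_ne hx]
      grind

lemma IsSpecial.add_eq_zero (hW : IsSpecial W) {x₁ y₁ x₂ y₂ : K} (h₁ : W.Nonsingular x₁ y₁)
    (h₂ : W.Nonsingular x₂ y₂) (hx : x₁ = x₂) (hy : y₁ = -y₂) :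
    Point.some _ _ h₁ + Point.some _ _ h₂ = 0 :=
  add_of_Y_eq hx (by rw [hW.negY]; exact hy)

end Fermat.Agent.S05
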